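import Fermat.Agent.RedQ.HauptMod
set_option autoImplicit false
set_option linter.unusedSectionVars false

noncomputable section
open UpperHalfPlane Function Filter ModularCurve Polynomial
open scoped Topology Manifold MatrixGroups ModularForm

namespace Fermat.Agent.RedQ

open Fermat.Agent.Igusa

lemma card_Cos_two : Fintype.card (Cos 2) = 2 + 1 := by
  rw [card_Cos]; decide +kernel

lemma card_Cos_three : Fintype.card (Cos 3) = 3 + 1 := by
  rw [card_Cos]; decide +kernel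

section ser
variable (R : Type*) [CommRing R]

/-- reduction of an integral power series -/
def oP : PowerSeries ℤ →+* LaurentSeries R :=
  (HahnSeries.ofPowerSeries ℤ R).comp (PowerSeries.map (Int.castRingHom R))

lemma oP_X : oP R PowerSeries.X = HahnSeries.single 1 1 := by
  simp [oP, HahnSeries.ofPowerSeries_X]

lemma single_inv : (HahnSeries.single (1 : ℤ) (1 : R)) * HahnSeries.single (-1 : ℤ) (1 : R) = 1 := by
  rw [HahnSeries.single_mul_single, mul_one, add_neg_cancel]; rfl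

lemma hauptC_eq' (p e : ℕ) [NeZero p] : hauptC R p e = HahnSeries.single (-1 : ℤ) 1 * oP R (uI p e) := rfl

lemma jqModC_eq' : jqModC R = HahnSeries.single (-1 : ℤ) 1 * oP R jNum := rfl

lemma qExpand_jqModC (p : ℕ) [NeZero p] : qExpand R p (jqModC R) =
    HahnSeries.single (-1 : ℤ) 1 ^ p * oP R (psS p jNum) := by
  rw [jqModC_eq', map_mul, qExpand_single, HahnSeries.single_pow, one_pow,
    show ((p : ℤ) * -1) = p • (-1 : ℤ) by simp]
  congr 1
  exact (ofPS_psS' R p jNum).symm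

lemma Van.of_eq {a : ℤ} {x : LaurentSeries R} (r : PowerSeries R)
    (h : x = HahnSeries.single a 1 * HahnSeries.ofPowerSeries ℤ R r) : Van a x := ⟨r, h⟩

lemma vanI2 : Van (-1) ((hauptC R 2 24 + 256) ^ 3 - jqModC R * hauptC R 2 24 ^ 2) := by
  obtain ⟨r, hr⟩ := relI2
  refine ⟨r.map (Int.castRingHom R), ?_⟩
  have h1 := congrArg (oP R) hr
  simp only [map_sub, map_pow, map_add, map_mul, map_ofNat, oP_X] at h1
  rw [hauptC_eq', jqModC_eq']
  have hx := single_inv R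
  set x : LaurentSeries R := HahnSeries.single (1 : ℤ) 1
  set y : LaurentSeries R := HahnSeries.single (-1 : ℤ) 1
  set U := oP R (uI 2 24)
  set J := oP R jNum
  have h2 : y * U + 256 = y * (U + 256 * x) := by linear_combination (- 256) * hx
  have h3 : y * J * (y * U) ^ 2 = y ^ 3 * (J * U ^ 2) := by ring
  rw [h2, h3, mul_pow, ← mul_sub, h1]
  change y ^ 3 * (x ^ 2 * oP R r) = y * oP R r
  linear_combination (y * oP R r) * (x * y + 1) * hx

lemma vanI3 : Van (-2) ((hauptC R 3 12 + 27) * (hauptC R 3 12 + 243) ^ 3 - jqModC R * hauptC R 3 12 ^ 3) := by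
  obtain ⟨r, hr⟩ := relI3
  refine ⟨r.map (Int.castRingHom R), ?_⟩
  have h1 := congrArg (oP R) hr
  simp only [map_sub, map_pow, map_add, map_mul, map_ofNat, oP_X] at h1
  rw [hauptC_eq', jqModC_eq']
  have hx := single_inv R
  have hy : (HahnSeries.single (-2 : ℤ) (1 : R)) = HahnSeries.single (-1 : ℤ) 1 ^ 2 := by
    rw [HahnSeries.single_pow, one_pow]; rfl
  rw [hy]
  set x : LaurentSeries R := HahnSeries.single (1 : ℤ) 1
  set y : LaurentSeries R := HahnSeries.single (-1 : ℤ) 1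
  set U := oP R (uI 3 12)
  set J := oP R jNum
  have h2 : y * U + 27 = y * (U + 27 * x) := by linear_combination (- 27) * hx
  have h2' : y * U + 243 = y * (U + 243 * x) := by linear_combination (- 243) * hx
  have h3 : y * J * (y * U) ^ 3 = y ^ 4 * (J * U ^ 3) := by ring
  have h4 : y * (U + 27 * x) * (y * (U + 243 * x)) ^ 3 = y ^ 4 * ((U + 27 * x) * (U + 243 * x) ^ 3) := by ring
  rw [h2, h2', h3, h4, ← mul_sub, h1]
  change y ^ 4 * (x ^ 2 * oP R r) = y ^ 2 * oP R r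
  linear_combination (y ^ 2 * oP R r) * (x * y + 1) * hx

lemma vanZ2 : Van 2 ((2 ^ 12 * (HahnSeries.single (1 : ℤ) 1 * oP R (uZ 2 24)) + 256) ^ 3 -
    qExpand R 2 (jqModC R) * (2 ^ 12 * (HahnSeries.single (1 : ℤ) 1 * oP R (uZ 2 24))) ^ 2) := by
  obtain ⟨r, hr⟩ := relZ2
  refine ⟨(2 ^ 24 * r).map (Int.castRingHom R), ?_⟩
  have h1 := congrArg (oP R) hr
  simp only [map_sub, map_pow, map_add, map_mul, map_ofNat, map_one, oP_X] at h1
  rw [qExpand_jqModC]
  have hx := single_inv R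
  have hy : (HahnSeries.single (2 : ℤ) (1 : R)) = HahnSeries.single (1 : ℤ) 1 ^ 2 := by
    rw [HahnSeries.single_pow, one_pow]; rfl
  rw [hy]
  change _ = _ * oP R (2 ^ 24 * r)
  rw [map_mul, map_pow, map_ofNat]
  set x : LaurentSeries R := HahnSeries.single (1 : ℤ) 1
  set y : LaurentSeries R := HahnSeries.single (-1 : ℤ) 1
  set W := oP R (uZ 2 24)
  set J := oP R (psS 2 jNum)
  have h3 : y ^ 2 * J * (2 ^ 12 * (x * W)) ^ 2 = 2 ^ 24 * (J * W ^ 2) := by
    linear_combination (2 ^ 24 * (J * W ^ 2)) * (x * y + 1) * hx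
  have h4 : (2 ^ 12 * (x * W) + 256) ^ 3 = 2 ^ 24 * (1 + 16 * x * W) ^ 3 := by ring
  rw [h3, h4, ← mul_sub, h1]
  ring

lemma vanZ3 : Van 3 ((3 ^ 6 * (HahnSeries.single (1 : ℤ) 1 * oP R (uZ 3 12)) + 27) *
    (3 ^ 6 * (HahnSeries.single (1 : ℤ) 1 * oP R (uZ 3 12)) + 243) ^ 3 -
    qExpand R 3 (jqModC R) * (3 ^ 6 * (HahnSeries.single (1 : ℤ) 1 * oP R (uZ 3 12))) ^ 3) := by
  obtain ⟨r, hr⟩ := relZ3
  refine ⟨(3 ^ 18 * r).map (Int.castRingHom R), ?_⟩
  have h1 := congrArg (oP R) hr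
  simp only [map_sub, map_pow, map_add, map_mul, map_ofNat, map_one, oP_X] at h1
  rw [qExpand_jqModC]
  have hx := single_inv R
  have hy : (HahnSeries.single (3 : ℤ) (1 : R)) = HahnSeries.single (1 : ℤ) 1 ^ 3 := by
    rw [HahnSeries.single_pow, one_pow]; rfl
  rw [hy]
  change _ = _ * oP R (3 ^ 18 * r)
  rw [map_mul, map_pow, map_ofNat]
  set x : LaurentSeries R := HahnSeries.single (1 : ℤ) 1
  set y : LaurentSeries R := HahnSeries.single (-1 : ℤ) 1
  set W := oP R (uZ 3 12)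
  set J := oP R (psS 3 jNum)
  have h3 : y ^ 3 * J * (3 ^ 6 * (x * W)) ^ 3 = 3 ^ 18 * (J * W ^ 3) := by
    linear_combination (3 ^ 18 * (J * W ^ 3)) * ((x * y) ^ 2 + x * y + 1) * hx
  have h4 : (3 ^ 6 * (x * W) + 27) * (3 ^ 6 * (x * W) + 243) ^ 3 =
    3 ^ 18 * ((1 + 27 * x * W) * (1 + 3 * x * W) ^ 3) := by ring
  rw [h3, h4, ← mul_sub, h1]
  ring

end ser

section rel

lemma evAt_jel1 (τ : ℍ) : evAt τ (jel1 ℂ) = jfun τ := rfl

lemma evAt_jel (h : ℕ) [NeZero h] (τ : ℍ) : evAt τ (jel h ℂ) = jfun τ := rfl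

lemma serHom_jel (h : ℕ) [NeZero h] : serHom (jel h ℂ) = qExpand ℂ h (jqModC ℂ) := rfl

lemma serHom_jel1 : serHom (jel1 ℂ) = jqModC ℂ := rfl

lemma evAt_cst (h : ℕ) [NeZero h] (τ : ℍ) (r : ℂ) : evAt τ (cst h ℂ r) = r := rfl

theorem rel2_exp : ((tE ℂ 2 24 + 256) ^ 3 - jel1 ℂ * (tE ℂ 2 24) ^ 2 : expRing 1 ℂ) = 0 := by
  have hR : GoodRing 2 ℂ := goodRing_complex
  have ht : IsMod 2 ℂ (tf 2 24) := isMod_tf (m := 12) hR (Or.inl rfl) (by norm_num)
  have hS := tf_S 2 (m := 12) (by norm_num)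
  rw [show 2 * 12 = 24 from rfl] at hS
  have hf : IsMod 2 ℂ (fun τ => (tf 2 24 τ + 256) ^ 3 - jfun τ * tf 2 24 τ ^ 2) :=
    { inv := fun γ hγ τ => by
        rw [ht.inv γ hγ, jfun_smul]
      exp := fun γ => by
        obtain ⟨x, hx⟩ := ht.exp γ
        refine ⟨(x + 256) ^ 3 - jel 2 ℂ * x ^ 2, fun τ => ?_⟩
        simp only [map_sub, map_pow, map_add, map_mul, map_ofNat, hx, evAt_jel, jfun_smul] }
  refine eq_zero_of_norm (p := 2) card_Cos_two (Or.inl rfl) (m := 12) (by norm_num) hf _ ?_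
    ((cst 2 ℂ (2 ^ 12) * sE ℂ 2 24 + 256) ^ 3 - jel 2 ℂ * (cst 2 ℂ (2 ^ 12) * sE ℂ 2 24) ^ 2) ?_
    (a := -1) (b := 2) ?_ ?_ (by norm_num)
  · intro τ
    simp only [map_sub, map_pow, map_add, map_mul, map_ofNat, evAt_tE, evAt_jel1]
  · intro τ
    simp only [map_sub, map_pow, map_add, map_mul, map_ofNat, evAt_sE, evAt_jel, hS, jfun_smul,
      Nat.cast_ofNat]
  · simp only [map_sub, map_pow, map_add, map_mul, map_ofNat, serHom_tE, serHom_jel1]
    exact vanI2 ℂ
  · have h1 : serHom (sE ℂ 2 24) = HahnSeries.single (1 : ℤ) 1 * oP ℂ (uZ 2 24) := serHom_sE ℂ 2 24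
    simp only [map_sub, map_pow, map_add, map_mul, map_ofNat, h1, serHom_jel]
    have h2 := vanZ2 ℂ
    convert h2 using 1

theorem rel3_exp : ((tE ℂ 3 12 + 27) * (tE ℂ 3 12 + 243) ^ 3 - jel1 ℂ * (tE ℂ 3 12) ^ 3 : expRing 1 ℂ) = 0 := by
  have hR : GoodRing 3 ℂ := goodRing_complex
  have ht : IsMod 3 ℂ (tf 3 12) := isMod_tf (m := 6) hR (Or.inr rfl) (by norm_num)
  have hS := tf_S 3 (m := 6) (by norm_num)
  rw [show 2 * 6 = 12 from rfl] at hS
  have hf : IsMod 3 ℂ (fun τ => (tf 3 12 τ + 27) * (tf 3 12 τ + 243) ^ 3 - jfun τ * tf 3 12 τ ^ 3) :=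
    { inv := fun γ hγ τ => by
        rw [ht.inv γ hγ, jfun_smul]
      exp := fun γ => by
        obtain ⟨x, hx⟩ := ht.exp γ
        refine ⟨(x + 27) * (x + 243) ^ 3 - jel 3 ℂ * x ^ 3, fun τ => ?_⟩
        simp only [map_sub, map_pow, map_add, map_mul, map_ofNat, hx, evAt_jel, jfun_smul] }
  refine eq_zero_of_norm (p := 3) card_Cos_three (Or.inr rfl) (m := 6) (by norm_num) hf _ ?_
    ((cst 3 ℂ (3 ^ 6) * sE ℂ 3 12 + 27) * (cst 3 ℂ (3 ^ 6) * sE ℂ 3 12 + 243) ^ 3 -
      jel 3 ℂ * (cst 3 ℂ (3 ^ 6) * sE ℂ 3 12) ^ 3) ?_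
    (a := -2) (b := 3) ?_ ?_ (by norm_num)
  · intro τ
    simp only [map_sub, map_pow, map_add, map_mul, map_ofNat, evAt_tE, evAt_jel1]
  · intro τ
    simp only [map_sub, map_pow, map_add, map_mul, map_ofNat, evAt_sE, evAt_jel, hS, jfun_smul,
      Nat.cast_ofNat]
  · simp only [map_sub, map_pow, map_add, map_mul, map_ofNat, serHom_tE, serHom_jel1]
    exact vanI3 ℂ
  · have h1 : serHom (sE ℂ 3 12) = HahnSeries.single (1 : ℤ) 1 * oP ℂ (uZ 3 12) := serHom_sE ℂ 3 12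
    simp only [map_sub, map_pow, map_add, map_mul, map_ofNat, h1, serHom_jel]
    exact vanZ3 ℂ

variable (R : Type*) [CommRing R]

/-- **the relation between `j` and the Hauptmodul of level 2** -/
theorem rel2 : (hauptC R 2 24 + 256) ^ 3 = jqModC R * hauptC R 2 24 ^ 2 := by
  have h1 := congrArg serHom rel2_exp
  simp only [map_sub, map_pow, map_add, map_mul, map_ofNat, serHom_tE, map_zero] at h1
  have h2 : (hauptC ℂ 2 24 + 256) ^ 3 = jqModC ℂ * hauptC ℂ 2 24 ^ 2 := sub_eq_zero.mp h1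
  have h3 : (hauptC ℤ 2 24 + 256) ^ 3 = jqModC ℤ * hauptC ℤ 2 24 ^ 2 := by
    apply coeffMap_injective (Int.castRingHom ℂ) (RingHom.injective_int _)
    simp only [map_pow, map_add, map_mul, map_ofNat, coeffMap_hauptC, coeffMap_jqModC]
    exact h2
  have h4 := congrArg (coeffMap (Int.castRingHom R)) h3
  simpa only [map_pow, map_add, map_mul, map_ofNat, coeffMap_hauptC, coeffMap_jqModC] using h4

/-- **the relation between `j` and the Hauptmodul of level 3** -/
theorem rel3 : (hauptC R 3 12 + 27) * (hauptC R 3 12 + 243) ^ 3 = jqModC R * hauptC R 3 12 ^ 3 := by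
  have h1 := congrArg serHom rel3_exp
  simp only [map_sub, map_pow, map_add, map_mul, map_ofNat, serHom_tE, map_zero] at h1
  have h2 : (hauptC ℂ 3 12 + 27) * (hauptC ℂ 3 12 + 243) ^ 3 = jqModC ℂ * hauptC ℂ 3 12 ^ 3 := sub_eq_zero.mp h1
  have h3 : (hauptC ℤ 3 12 + 27) * (hauptC ℤ 3 12 + 243) ^ 3 = jqModC ℤ * hauptC ℤ 3 12 ^ 3 := by
    apply coeffMap_injective (Int.castRingHom ℂ) (RingHom.injective_int _)
    simp only [map_pow, map_add, map_mul, map_ofNat, coeffMap_hauptC, coeffMap_jqModC]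
    exact h2
  have h4 := congrArg (coeffMap (Int.castRingHom R)) h3
  simpa only [map_pow, map_add, map_mul, map_ofNat, coeffMap_hauptC, coeffMap_jqModC] using h4

end rel

section member

variable (N : ℕ) [NeZero N]

/-- being a rational function in `j` and `U` -/
def InU (k : Type*) [Field k] (g : LaurentSeries k) : Prop :=
  ∃ w z : k[X][X], w.eval₂ (jev k) (UserU k N) ≠ 0 ∧
    g * w.eval₂ (jev k) (UserU k N) = z.eval₂ (jev k) (UserU k N)

variable {N}

lemma InU.mem {k : Type*} [Field k] {g : LaurentSeries k} (h : InU N k g) (hb : BaseData N k) :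
    g ∈ modularFunctionFieldFullC k N := by
  obtain ⟨w, z, hw, hwz⟩ := h
  exact mem_of_rel (jqModC_mem_full k N) hb.U_mem_full hw hwz

lemma InU.descend {κ₀ κ : Type*} [Field κ₀] [Field κ] [Algebra κ₀ κ] {g : LaurentSeries κ₀}
    (h : InU N κ (coeffMap (algebraMap κ₀ κ) g)) : InU N κ₀ g := by
  obtain ⟨w, z, hw, hwz⟩ := h
  rw [← coeffMap_UserU N (algebraMap κ₀ κ)] at hw hwz
  exact descend_relation hw hwz

lemma InU.extend {κ₀ κ : Type*} [Field κ₀] [Field κ] [Algebra κ₀ κ] {g : LaurentSeries κ₀}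
    (h : InU N κ₀ g) : InU N κ (coeffMap (algebraMap κ₀ κ) g) := by
  obtain ⟨w, z, hw, hwz⟩ := h
  refine ⟨w.map (Polynomial.mapRingHom (algebraMap κ₀ κ)), z.map (Polynomial.mapRingHom (algebraMap κ₀ κ)), ?_, ?_⟩
  · rw [← coeffMap_UserU N (algebraMap κ₀ κ), ← coeffMap_eval₂_jev,
      Ne, map_eq_zero_iff _ (coeffMap_injective _ (algebraMap κ₀ κ).injective)]
    exact hw
  · rw [← coeffMap_UserU N (algebraMap κ₀ κ), ← coeffMap_eval₂_jev, ← coeffMap_eval₂_jev, ← map_mul, hwz]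

/-- rationality over the residue field of a place, for a general modular function -/
theorem inU_of_place {R : Type*} [CommRing R] [Algebra R ℂ] (hR : GoodRing N R)
    (hinj : Function.Injective (algebraMap R ℂ)) {κ : Type} [Field κ] (ρ : R →+* κ)
    {g : ℍ → ℂ} (hg : IsMod N R g) (yg : expRing 1 R) (hyg : ∀ τ, evAt τ yg = g τ) :
    InU N κ (coeffMap ρ (serHom yg)) := by
  obtain ⟨w, z, hw, hwz⟩ := lagrange_gen hinj ρ (isMod_Ufun hR) hg (UE N R)
    yg (evAt_UE N R) hyg (fun c hc => conj_ne hR hinj hc ρ)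
  have h1 : serHom (UE N R : expRing 1 R) = (UserU R N : LaurentSeries R) := by
    rw [← serU_UE N R]; rfl
  rw [h1, coeffMap_UserU] at hw hwz
  exact ⟨w, z, hw, hwz⟩

variable (p : ℕ) [NeZero p] {m : ℕ} (hp : p = 2 ∨ p = 3) (he : 2 * m * (p - 1) = 24)
include hp he

theorem haupt_inU_charZero (k : Type*) [Field k] [CharZero k] : InU p k (hauptC k p (2 * m)) := by
  have h1 : InU p ℂ (hauptC ℂ p (2 * m)) := by
    have := inU_of_place (R := ℂ) goodRing_complex (fun _ _ h => h) (RingHom.id ℂ)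
      (isMod_tf (p := p) goodRing_complex hp he) (tE ℂ p (2 * m)) (evAt_tE ℂ p (2 * m))
    rwa [serHom_tE, coeffMap_hauptC] at this
  have h2 : InU p ℚ (hauptC ℚ p (2 * m)) := by
    apply InU.descend (κ := ℂ)
    rwa [coeffMap_hauptC]
  let : Algebra ℚ k := DivisionRing.toRatAlgebra
  have h3 := h2.extend (κ := k)
  rwa [coeffMap_hauptC] at h3

theorem haupt_inU_charP (ℓ : ℕ) [Fact ℓ.Prime] (hN : ¬ ℓ ∣ p) (k : Type*) [Field k] [CharP k ℓ] :
    InU p k (hauptC k p (2 * m)) := by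
  obtain ⟨O, hO⟩ := exists_valSubring ℓ
  have hR : GoodRing p O := goodRing_O hO hN
  have hinj : Injective (algebraMap O ℂ) := fun _ _ h => Subtype.ext h
  let κ := IsLocalRing.ResidueField O
  let ρ : O →+* κ := IsLocalRing.residue O
  have h1 : InU p κ (hauptC κ p (2 * m)) := by
    have := inU_of_place hR hinj ρ (isMod_tf (p := p) hR hp he) (tE O p (2 * m)) (evAt_tE O p (2 * m))
    rwa [serHom_tE, coeffMap_hauptC] at this
  have hchar : CharP κ ℓ := by
    have h1 : ((ℓ : ℕ) : κ) = 0 := by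
      have h2 : ρ (ℓ : O) = 0 := (IsLocalRing.residue_eq_zero_iff _).mpr hO
      rwa [map_natCast] at h2
    exact (CharP.charP_iff_prime_eq_zero (Fact.out : ℓ.Prime)).mpr h1
  let : Algebra (ZMod ℓ) κ := ZMod.algebra κ ℓ
  have h2 : InU p (ZMod ℓ) (hauptC (ZMod ℓ) p (2 * m)) := by
    apply InU.descend (κ := κ)
    rwa [coeffMap_hauptC]
  let : Algebra (ZMod ℓ) k := ZMod.algebra k ℓ
  have h3 := h2.extend (κ := k)
  rwa [coeffMap_hauptC] at h3

theorem haupt_mem_charZero (k : Type*) [Field k] [CharZero k] :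
    hauptC k p (2 * m) ∈ modularFunctionFieldFullC k p :=
  (haupt_inU_charZero p hp he k).mem (baseData_charZero p k)

theorem haupt_mem_charP (ℓ : ℕ) [Fact ℓ.Prime] (hN : ¬ ℓ ∣ p) (k : Type*) [Field k] [CharP k ℓ] :
    hauptC k p (2 * m) ∈ modularFunctionFieldFullC k p :=
  (haupt_inU_charP p hp he ℓ hN k).mem (baseData_charP p ℓ hN k)

end member

section final

/-- the Hauptmodul of level 2, `h = Δ(q) / Δ(q²)` -/
abbrev haupt2 (R : Type*) [CommRing R] : LaurentSeries R := hauptC R 2 24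

/-- the Hauptmodul of level 3, `t = (η(q) / η(q³))^12` -/
abbrev haupt3 (R : Type*) [CommRing R] : LaurentSeries R := hauptC R 3 12

variable (R : Type*) [CommRing R]

lemma deltaC_eq_eta : deltaC R = HahnSeries.single (1 : ℤ) 1 * etaCs R ^ 24 := by
  rw [deltaC, dedekindEtaUnit, ofPS_map]; rfl

lemma hauptC_pow (p e : ℕ) [NeZero p] (he : e * (p - 1) = 24) :
    hauptC R p e ^ (p - 1) * qExpand R p (deltaC R) = deltaC R := by
  have hp : 1 ≤ p := p_pos p
  have hinv : qExpand R p (etaCs R) * qExpand R p (etaICs R) = 1 := by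
    rw [← map_mul, etaCs_mul_inv, map_one]
  rw [deltaC_eq_eta, map_mul, map_pow, qExpand_single, hauptC_eq, mul_pow, mul_pow, ← pow_mul, ← pow_mul, he,
    HahnSeries.single_pow, one_pow]
  calc HahnSeries.single ((p - 1) • (-1 : ℤ)) 1 * etaCs R ^ 24 * qExpand R p (etaICs R) ^ 24 *
        (HahnSeries.single ((p : ℤ) * 1) 1 * qExpand R p (etaCs R) ^ 24)
      = (HahnSeries.single ((p - 1) • (-1 : ℤ)) 1 * HahnSeries.single ((p : ℤ) * 1) 1) * etaCs R ^ 24 *
        (qExpand R p (etaCs R) * qExpand R p (etaICs R)) ^ 24 := by ring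
    _ = HahnSeries.single (1 : ℤ) 1 * etaCs R ^ 24 := by
        rw [hinv, one_pow, mul_one, HahnSeries.single_mul_single, one_mul]
        congr 3
        simp only [nsmul_eq_mul]
        rw [Nat.cast_sub hp]
        push_cast
        ring

lemma coeff_uI_zero (p e : ℕ) [NeZero p] : (uI p e).coeff 0 = 1 := by
  have h1 : (psS p etaInv).coeff 0 = 1 := by
    have := psS_coeff_mul p etaInv 0
    rwa [mul_zero, coeff_etaInv_zero] at this
  rw [PowerSeries.coeff_zero_eq_constantCoeff] at h1 ⊢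
  rw [uI, map_mul, map_pow, map_pow, constantCoeff_etaProd, h1, one_pow, mul_one]

lemma hauptC_coeff_neg_one (p e : ℕ) [NeZero p] : (hauptC R p e).coeff (-1) = 1 := by
  rw [hauptC, HahnSeries.coeff_single_mul, one_mul, sub_self,
    show (0 : ℤ) = ((0 : ℕ) : ℤ) from rfl, HahnSeries.ofPowerSeries_apply_coeff,
    PowerSeries.coeff_map, coeff_uI_zero, map_one]

lemma hauptC_coeff_of_lt (p e : ℕ) [NeZero p] {j : ℤ} (hj : j < -1) : (hauptC R p e).coeff j = 0 := by
  rw [hauptC, HahnSeries.coeff_single_mul, one_mul, ofPowerSeries_coeff_of_neg _ (by omega)]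

lemma order_hauptC (k : Type*) [Field k] (p e : ℕ) [NeZero p] : (hauptC k p e).order = -1 := by
  apply order_eq_of
  · rw [hauptC_coeff_neg_one]; exact one_ne_zero
  · intro j hj
    exact hauptC_coeff_of_lt k p e hj

theorem haupt2_mul : haupt2 R * qExpand R 2 (deltaC R) = deltaC R := by
  have := hauptC_pow R 2 24 (by norm_num)
  simpa using this

theorem haupt3_sq : haupt3 R ^ 2 * qExpand R 3 (deltaC R) = deltaC R :=
  hauptC_pow R 3 12 (by norm_num)

theorem haupt2_rel : jqModC R * haupt2 R ^ 2 = (haupt2 R + 256) ^ 3 := (rel2 R).symm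

theorem haupt3_rel : jqModC R * haupt3 R ^ 3 = (haupt3 R + 27) * (haupt3 R + 243) ^ 3 := (rel3 R).symm

theorem haupt2_mem_charZero (k : Type*) [Field k] [CharZero k] :
    haupt2 k ∈ modularFunctionFieldFullC k 2 :=
  haupt_mem_charZero 2 (m := 12) (Or.inl rfl) (by norm_num) k

theorem haupt3_mem_charZero (k : Type*) [Field k] [CharZero k] :
    haupt3 k ∈ modularFunctionFieldFullC k 3 :=
  haupt_mem_charZero 3 (m := 6) (Or.inr rfl) (by norm_num) k

theorem haupt2_mem_charP (ℓ : ℕ) [Fact ℓ.Prime] (hℓ : ℓ ≠ 2) (k : Type*) [Field k] [CharP k ℓ] :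
    haupt2 k ∈ modularFunctionFieldFullC k 2 :=
  haupt_mem_charP 2 (m := 12) (Or.inl rfl) (by norm_num) ℓ
    (fun h => hℓ ((Nat.prime_dvd_prime_iff_eq Fact.out Nat.prime_two).mp h)) k

theorem haupt3_mem_charP (ℓ : ℕ) [Fact ℓ.Prime] (hℓ : ℓ ≠ 3) (k : Type*) [Field k] [CharP k ℓ] :
    haupt3 k ∈ modularFunctionFieldFullC k 3 :=
  haupt_mem_charP 3 (m := 6) (Or.inr rfl) (by norm_num) ℓ
    (fun h => hℓ ((Nat.prime_dvd_prime_iff_eq Fact.out Nat.prime_three).mp h)) k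

end final

end Fermat.Agent.RedQ
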