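import Mathlib
set_option autoImplicit false
set_option linter.unusedSectionVars false

noncomputable section
open Polynomial IntermediateField

namespace Fermat.Agent.RedQ

section general

variable {k F : Type*} [Field k] [Field F] [Algebra k F] (x u : F)

/-- the ring map `k[T] → k(x)` -/
def genHom : k[X] →+* k⟮x⟯ := (aeval (AdjoinSimple.gen k x) : k[X] →ₐ[k] k⟮x⟯).toRingHom

lemma coe_genHom (p : k[X]) : ((genHom x p : k⟮x⟯) : F) = aeval x p := by
  have : (algebraMap k⟮x⟯ F) (aeval (AdjoinSimple.gen k x) p) = aeval (algebraMap k⟮x⟯ F (AdjoinSimple.gen k x)) p := by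
    rw [aeval_algebraMap_apply]
  exact this

lemma genHom_injective (hx : Transcendental k x) : Function.Injective (genHom (k := k) x) := by
  intro p q hpq
  have := congrArg (fun y : k⟮x⟯ => (y : F)) hpq
  simp only [coe_genHom] at this
  exact transcendental_iff_injective.mp hx this

lemma exists_clear (hx : Transcendental k x) (p : k⟮x⟯[X]) (hp : p ≠ 0) :
    ∃ P : k[X][X], P ≠ 0 ∧ P.degree ≤ p.degree ∧ ∃ d : k[X], d ≠ 0 ∧
      P.map (genHom x) = C (genHom x d) * p := by
  let ia : Algebra k[X] k⟮x⟯ := (genHom x).toAlgebra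
  have hinj : Function.Injective (algebraMap k[X] k⟮x⟯) := genHom_injective x hx
  have hfs : FaithfulSMul k[X] k⟮x⟯ := (faithfulSMul_iff_algebraMap_injective _ _).mpr hinj
  have hfr : IsFractionRing k[X] k⟮x⟯ := by
    refine .of_field _ _ fun y => ?_
    obtain ⟨r, s, hrs⟩ := (IntermediateField.mem_adjoin_simple_iff k (y : F)).mp y.2
    refine ⟨r, s, ?_⟩
    apply Subtype.ext
    change (y : F) = ((genHom x r / genHom x s : k⟮x⟯) : F)
    push_cast
    rw [coe_genHom, coe_genHom]
    exact hrs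
  obtain ⟨b, hbm, hb⟩ := IsLocalization.integerNormalization_spec (nonZeroDivisors k[X]) p
  refine ⟨IsLocalization.integerNormalization (nonZeroDivisors k[X]) p, ?_, ?_, b,
    nonZeroDivisors.ne_zero hbm, ?_⟩
  · rw [Ne, IsFractionRing.integerNormalization_eq_zero_iff]
    exact hp
  · exact Polynomial.degree_mono (IsLocalization.integerNormalization_support _ p)
  · change (IsLocalization.integerNormalization (nonZeroDivisors k[X]) p).map (algebraMap _ _) = _
    rw [hb]
    change (b : k[X]) • p = C (algebraMap k[X] k⟮x⟯ b) * p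
    rw [← Polynomial.smul_eq_C_mul, algebraMap_smul]

lemma eval₂_genHom (P : k[X][X]) :
    (P.map (genHom x)).aeval u = P.eval₂ (aeval x : k[X] →ₐ[k] F).toRingHom u := by
  rw [aeval_def, eval₂_map]
  congr 1
  refine RingHom.ext fun p => ?_
  exact coe_genHom x p

/-- computing a minimal polynomial over `k(x)` -/
theorem minpoly_eq (hx : Transcendental k x) {n : ℕ}
    (indep : ∀ P : k[X][X], P.degree < n → P.eval₂ (aeval x : k[X] →ₐ[k] F).toRingHom u = 0 → P = 0)
    {Q : k[X][X]} (hQ : Q.Monic) (hd : Q.degree = n)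
    (hr : Q.eval₂ (aeval x : k[X] →ₐ[k] F).toRingHom u = 0) :
    minpoly k⟮x⟯ u = Q.map (genHom x) := by
  have hQm : (Q.map (genHom x)).Monic := hQ.map _
  have hQr : aeval u (Q.map (genHom x)) = 0 := by rw [eval₂_genHom, hr]
  have hint : IsIntegral k⟮x⟯ u := ⟨_, hQm, by rw [← aeval_def]; exact hQr⟩
  have hdvd : minpoly k⟮x⟯ u ∣ Q.map (genHom x) := minpoly.dvd _ _ hQr
  refine (Polynomial.eq_of_monic_of_dvd_of_natDegree_le (minpoly.monic hint) hQm hdvd ?_).symm
  rw [hQ.natDegree_map]
  by_contra hlt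
  push Not at hlt
  obtain ⟨P, hP0, hPd, d, hd0, hPe⟩ := exists_clear x hx (minpoly k⟮x⟯ u) (minpoly.ne_zero hint)
  apply hP0
  apply indep
  · refine lt_of_le_of_lt hPd ?_
    rw [Polynomial.degree_eq_natDegree (minpoly.ne_zero hint), ← hd,
      Polynomial.degree_eq_natDegree hQ.ne_zero]
    exact_mod_cast hlt
  · rw [← eval₂_genHom, hPe, map_mul, minpoly.aeval, mul_zero]

/-- the degree and separability of `k(x,u)/k(x)` -/
theorem finrank_and_separable (hx : Transcendental k x) {n : ℕ}
    (indep : ∀ P : k[X][X], P.degree < n → P.eval₂ (aeval x : k[X] →ₐ[k] F).toRingHom u = 0 → P = 0)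
    {Q : k[X][X]} (hQ : Q.Monic) (hd : Q.degree = n)
    (hr : Q.eval₂ (aeval x : k[X] →ₐ[k] F).toRingHom u = 0)
    (hder : (derivative Q).eval₂ (aeval x : k[X] →ₐ[k] F).toRingHom u ≠ 0)
    (htop : IntermediateField.adjoin k {x, u} = ⊤) :
    Module.finrank k⟮x⟯ F = n ∧ FiniteDimensional k⟮x⟯ F ∧ Algebra.IsSeparable k⟮x⟯ F := by
  have hmin := minpoly_eq x u hx indep hQ hd hr
  have hQm : (Q.map (genHom x)).Monic := hQ.map _
  have hQr : aeval u (Q.map (genHom x)) = 0 := by rw [eval₂_genHom, hr]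
  have hint : IsIntegral k⟮x⟯ u := ⟨_, hQm, by rw [← aeval_def]; exact hQr⟩
  have htop' : (k⟮x⟯)⟮u⟯ = ⊤ := by
    rw [← IntermediateField.restrictScalars_eq_top_iff (K := k), IntermediateField.adjoin_simple_adjoin_simple, htop]
  have hnat : Q.natDegree = n := by
    have := Polynomial.degree_eq_natDegree hQ.ne_zero
    rw [hd] at this
    exact_mod_cast this.symm
  have hfr : Module.finrank k⟮x⟯ F = n := by
    rw [← IntermediateField.finrank_top', ← htop', IntermediateField.adjoin.finrank hint, hmin,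
      hQ.natDegree_map, hnat]
  have hsep : IsSeparable k⟮x⟯ u := by
    have hirr : Irreducible (minpoly k⟮x⟯ u) := minpoly.irreducible hint
    rw [IsSeparable, Polynomial.separable_iff_derivative_ne_zero hirr, hmin, Polynomial.derivative_map]
    intro h0
    apply hder
    rw [← eval₂_genHom, h0, map_zero]
  refine ⟨hfr, ?_, ?_⟩
  · have h1 : FiniteDimensional k⟮x⟯ (k⟮x⟯)⟮u⟯ := IntermediateField.adjoin.finiteDimensional hint
    rw [htop'] at h1
    exact (IntermediateField.topEquiv (F := k⟮x⟯) (E := F)).toLinearEquiv.finiteDimensional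
  · have h1 : Algebra.IsSeparable k⟮x⟯ (k⟮x⟯)⟮u⟯ := by
      rw [IntermediateField.isSeparable_adjoin_simple_iff_isSeparable]
      exact hsep
    rw [htop'] at h1
    exact AlgEquiv.Algebra.isSeparable (IntermediateField.topEquiv (F := k⟮x⟯) (E := F))

end general

end Fermat.Agent.RedQ
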