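import Fermat.Agent.RedQ.BaseData
import Fermat.Agent.RedQ.Minpoly
import Fermat.Agent.Gam0.Index
set_option autoImplicit false
set_option linter.unusedSectionVars false

noncomputable section
open UpperHalfPlane Function Filter ModularCurve Polynomial
open scoped Topology Manifold MatrixGroups ModularForm IntermediateField

namespace Fermat.Agent.RedQ

open Fermat.Agent.Igusa

section field

variable (k : Type*) [Field k] (N : ℕ) [NeZero N]

/-- the `j`-invariant as an element of the function field -/
def xj : modularFunctionFieldFullC k N := ⟨jqModC k, jqModC_mem_full k N⟩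

lemma coe_xj : (xj k N : LaurentSeries k) = jqModC k := rfl

lemma algebraMap_eq_C' (r : k) : algebraMap k (LaurentSeries k) r = HahnSeries.C r := by
  rw [algebraMap_laurentSeries_eq_single]; rfl

lemma jev_eq_aeval (p : k[X]) : jev k p = aeval (jqModC k) p := by
  rw [aeval_def, jev]
  simp only [coe_eval₂RingHom]
  congr 1
  ext1 r
  exact (algebraMap_eq_C' k r).symm

lemma coe_aeval_xj (p : k[X]) :
    ((aeval (xj k N) p : modularFunctionFieldFullC k N) : LaurentSeries k) = jev k p := by
  rw [jev_eq_aeval]
  have : (algebraMap (modularFunctionFieldFullC k N) (LaurentSeries k)) (aeval (xj k N) p) =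
      aeval (algebraMap (modularFunctionFieldFullC k N) (LaurentSeries k) (xj k N)) p := by
    rw [aeval_algebraMap_apply]
  exact this

lemma coe_eval₂_xj (P : k[X][X]) (u : modularFunctionFieldFullC k N) :
    ((P.eval₂ (aeval (xj k N) : k[X] →ₐ[k] modularFunctionFieldFullC k N).toRingHom u :
      modularFunctionFieldFullC k N) : LaurentSeries k) = P.eval₂ (jev k) (u : LaurentSeries k) := by
  have h1 := Polynomial.hom_eval₂ P (aeval (xj k N) : k[X] →ₐ[k] modularFunctionFieldFullC k N).toRingHom
    (algebraMap (modularFunctionFieldFullC k N) (LaurentSeries k)) u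
  refine h1.trans ?_
  congr 1
  refine RingHom.ext fun p => ?_
  exact coe_aeval_xj k N p

theorem transcendental_xj : Transcendental k (xj k N) := by
  rw [transcendental_iff_injective]
  intro p q hpq
  apply jev_injective k
  rw [← coe_aeval_xj k N, ← coe_aeval_xj k N, hpq]

variable {k N}

lemma eval₂_jev_mem {S : IntermediateField k (LaurentSeries k)} (hj : jqModC k ∈ S)
    {y : LaurentSeries k} (hy : y ∈ S) (P : k[X][X]) : P.eval₂ (jev k) y ∈ S := by
  rw [Polynomial.eval₂_eq_sum_range]
  refine sum_mem fun i _ => mul_mem ?_ (pow_mem hy i)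
  rw [jev_eq_aeval]
  have h1 : algebraMap S (LaurentSeries k) (aeval (⟨jqModC k, hj⟩ : S) (P.coeff i)) =
      aeval (jqModC k) (P.coeff i) := by
    rw [← aeval_algebraMap_apply]; rfl
  rw [← h1]
  exact (aeval (⟨jqModC k, hj⟩ : S) (P.coeff i)).2

lemma mem_of_rel {S : IntermediateField k (LaurentSeries k)} (hj : jqModC k ∈ S)
    {y g : LaurentSeries k} (hy : y ∈ S) {w z : k[X][X]} (hw : w.eval₂ (jev k) y ≠ 0)
    (hwz : g * w.eval₂ (jev k) y = z.eval₂ (jev k) y) : g ∈ S := by
  have : g = z.eval₂ (jev k) y / w.eval₂ (jev k) y := by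
    rw [eq_div_iff hw, hwz]
  rw [this]
  exact div_mem (eval₂_jev_mem hj hy z) (eval₂_jev_mem hj hy w)

variable (h : BaseData N k)
include h

theorem BaseData.U_mem_C : (UserU k N : LaurentSeries k) ∈ modularFunctionFieldC k N := by
  obtain ⟨w, z, hw, hwz⟩ := h.u
  exact mem_of_rel (jqModC_mem k N) (jqNModC_mem k N) hw hwz

theorem BaseData.U_mem_full : (UserU k N : LaurentSeries k) ∈ modularFunctionFieldFullC k N :=
  modularFunctionFieldC_le_full k N h.U_mem_C

theorem BaseData.adjoin_jU : IntermediateField.adjoin k {jqModC k, (UserU k N : LaurentSeries k)} =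
    modularFunctionFieldFullC k N := by
  apply le_antisymm
  · rw [IntermediateField.adjoin_le_iff]
    rintro x (rfl | rfl)
    · exact jqModC_mem_full k N
    · exact h.U_mem_full
  · rw [modularFunctionFieldFullC, IntermediateField.adjoin_le_iff]
    rintro x ⟨d, hd, hdN, rfl⟩
    obtain ⟨w, z, hw, hwz⟩ := h.jt d hdN
    exact mem_of_rel (IntermediateField.subset_adjoin _ _ (Set.mem_insert _ _))
      (IntermediateField.subset_adjoin _ _ (Set.mem_insert_of_mem _ rfl)) hw hwz

theorem BaseData.full_eq : modularFunctionFieldFullC k N = modularFunctionFieldC k N := by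
  apply le_antisymm
  · rw [← h.adjoin_jU, IntermediateField.adjoin_le_iff]
    rintro x (rfl | rfl)
    · exact jqModC_mem k N
    · exact h.U_mem_C
  · exact modularFunctionFieldC_le_full k N

/-- the modular unit as an element of the function field -/
def BaseData.U : modularFunctionFieldFullC k N := ⟨(UserU k N : LaurentSeries k), h.U_mem_full⟩

theorem BaseData.adjoin_xU :
    IntermediateField.adjoin k {xj k N, h.U} = ⊤ := by
  apply (IntermediateField.lift_injective (modularFunctionFieldFullC k N))
  rw [IntermediateField.lift_top, IntermediateField.lift_adjoin, Set.image_pair]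
  exact h.adjoin_jU

theorem BaseData.main : Module.finrank (k⟮xj k N⟯) (modularFunctionFieldFullC k N) = Fintype.card (Cos N) ∧
    FiniteDimensional (k⟮xj k N⟯) (modularFunctionFieldFullC k N) ∧
    Algebra.IsSeparable (k⟮xj k N⟯) (modularFunctionFieldFullC k N) := by
  obtain ⟨Q, hQ, hd, hr, hder⟩ := h.poly
  refine finrank_and_separable (xj k N) h.U (transcendental_xj k N) (n := Fintype.card (Cos N)) ?_
    hQ hd ?_ ?_ h.adjoin_xU
  · intro P hP hP0
    apply h.indep P hP
    have := congrArg (fun y : modularFunctionFieldFullC k N => (y : LaurentSeries k)) hP0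
    simp only [coe_eval₂_xj] at this
    exact this
  · apply Subtype.ext
    rw [coe_eval₂_xj]
    exact hr
  · intro h0
    apply hder
    have := congrArg (fun y : modularFunctionFieldFullC k N => (y : LaurentSeries k)) h0
    simp only [coe_eval₂_xj] at this
    exact this

end field

theorem card_Cos (N : ℕ) [NeZero N] : Fintype.card (Cos N) = dedekindPsi N := by
  rw [← Fermat.Agent.Gam0.index_Gamma0 N (Nat.pos_of_ne_zero (NeZero.ne N)), Subgroup.index,
    Nat.card_eq_fintype_card]

section statements

variable (N : ℕ) [NeZero N] (k : Type*) [Field k]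

/-- `[k(X₀(N)) : k(j)] = ψ(N)` whenever the basic data hold -/
theorem BaseData.finrank_eq {N : ℕ} [NeZero N] {k : Type*} [Field k] (h : BaseData N k) :
    Module.finrank (k⟮xj k N⟯) (modularFunctionFieldFullC k N) = dedekindPsi N := by
  rw [h.main.1, card_Cos]

theorem finrank_charZero [CharZero k] :
    Module.finrank (k⟮xj k N⟯) (modularFunctionFieldFullC k N) = dedekindPsi N :=
  (baseData_charZero N k).finrank_eq

theorem finrank_charP (ℓ : ℕ) [Fact ℓ.Prime] (hN : ¬ ℓ ∣ N) [CharP k ℓ] :
    Module.finrank (k⟮xj k N⟯) (modularFunctionFieldFullC k N) = dedekindPsi N :=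
  (baseData_charP N ℓ hN k).finrank_eq

theorem finiteDimensional_charZero [CharZero k] :
    FiniteDimensional (k⟮xj k N⟯) (modularFunctionFieldFullC k N) :=
  (baseData_charZero N k).main.2.1

theorem finiteDimensional_charP (ℓ : ℕ) [Fact ℓ.Prime] (hN : ¬ ℓ ∣ N) [CharP k ℓ] :
    FiniteDimensional (k⟮xj k N⟯) (modularFunctionFieldFullC k N) :=
  (baseData_charP N ℓ hN k).main.2.1

theorem isSeparable_charP (ℓ : ℕ) [Fact ℓ.Prime] (hN : ¬ ℓ ∣ N) [CharP k ℓ] :
    Algebra.IsSeparable (k⟮xj k N⟯) (modularFunctionFieldFullC k N) :=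
  (baseData_charP N ℓ hN k).main.2.2

theorem full_eq_charZero [CharZero k] : modularFunctionFieldFullC k N = modularFunctionFieldC k N :=
  (baseData_charZero N k).full_eq

theorem full_eq_charP (ℓ : ℕ) [Fact ℓ.Prime] (hN : ¬ ℓ ∣ N) [CharP k ℓ] :
    modularFunctionFieldFullC k N = modularFunctionFieldC k N :=
  (baseData_charP N ℓ hN k).full_eq

/-- the modular unit lies in the function field -/
theorem UserU_mem_charZero [CharZero k] :
    (UserU k N : LaurentSeries k) ∈ modularFunctionFieldFullC k N :=
  (baseData_charZero N k).U_mem_full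

theorem UserU_mem_charP (ℓ : ℕ) [Fact ℓ.Prime] (hN : ¬ ℓ ∣ N) [CharP k ℓ] :
    (UserU k N : LaurentSeries k) ∈ modularFunctionFieldFullC k N :=
  (baseData_charP N ℓ hN k).U_mem_full

end statements

end Fermat.Agent.RedQ
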