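import Fermat.Agent.RedQ.Functional
set_option autoImplicit false
set_option linter.unusedSectionVars false

noncomputable section
open UpperHalfPlane Function Filter ModularCurve Polynomial
open scoped Topology Manifold MatrixGroups ModularForm

namespace Fermat.Agent.RedQ

open Fermat.Agent.Igusa

local notation "Δ" => ModularForm.discriminant

/-- The basic facts about `j`, the modular unit `U` and the functions `j(q^t)` over a field. -/
structure BaseData (N : ℕ) [NeZero N] (k : Type*) [Field k] : Prop where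
  indep : ∀ P : k[X][X], P.degree < Fintype.card (Cos N) → P.eval₂ (jev k) (UserU k N) = 0 → P = 0
  poly : ∃ Q : k[X][X], Q.Monic ∧ Q.degree = Fintype.card (Cos N) ∧
    Q.eval₂ (jev k) (UserU k N) = 0 ∧ (derivative Q).eval₂ (jev k) (UserU k N) ≠ 0
  jt : ∀ (t : ℕ) [NeZero t], t ∣ N → ∃ w z : k[X][X], w.eval₂ (jev k) (UserU k N) ≠ 0 ∧
    qExpand k t (jqModC k) * w.eval₂ (jev k) (UserU k N) = z.eval₂ (jev k) (UserU k N)
  u : ∃ w z : k[X][X], w.eval₂ (jev k) (qExpand k N (jqModC k)) ≠ 0 ∧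
    (UserU k N : LaurentSeries k) * w.eval₂ (jev k) (qExpand k N (jqModC k)) =
      z.eval₂ (jev k) (qExpand k N (jqModC k))

variable {N : ℕ} [NeZero N]

/-- descent of base data along a field extension -/
theorem BaseData.descend {κ₀ κ : Type*} [Field κ₀] [Field κ] [Algebra κ₀ κ] (h : BaseData N κ) :
    BaseData N κ₀ where
  indep P hdeg hP := by
    have h1 : P.map (Polynomial.mapRingHom (algebraMap κ₀ κ)) = 0 := by
      apply h.indep
      · exact lt_of_le_of_lt Polynomial.degree_map_le hdeg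
      · rw [← coeffMap_UserU N (algebraMap κ₀ κ), ← coeffMap_eval₂_jev, hP, map_zero]
    rwa [Polynomial.map_eq_zero_iff (Polynomial.map_injective _ (algebraMap κ₀ κ).injective)] at h1
  poly := by
    obtain ⟨Q, hm, hd, hr, hder⟩ := h.poly
    obtain ⟨g, hg⟩ := LinearMap.exists_leftInverse_of_injective (Algebra.linearMap κ₀ κ)
      (LinearMap.ker_eq_bot.mpr (algebraMap κ₀ κ).injective)
    have hg1 : g 1 = 1 := by
      have := LinearMap.congr_fun hg 1
      simpa using this
    set Q₀ : κ₀[X][X] := pmap (pmap g.toAddMonoidHom) Q with hQ₀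
    have h1 : Q₀.coeff Q.natDegree = 1 := by
      rw [hQ₀, pmap_coeff, hm.coeff_natDegree]
      ext i
      rw [pmap_coeff, Polynomial.coeff_one, Polynomial.coeff_one]
      split_ifs
      · exact hg1
      · exact map_zero _
    have h2 : Q₀.natDegree ≤ Q.natDegree := by
      rw [Polynomial.natDegree_le_iff_coeff_eq_zero]
      intro i hi
      rw [hQ₀, pmap_coeff, Polynomial.coeff_eq_zero_of_natDegree_lt hi, map_zero]
    have hm₀ : Q₀.Monic := Polynomial.monic_of_natDegree_le_of_coeff_eq_one _ h2 h1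
    have hn₀ : Q₀.natDegree = Q.natDegree :=
      le_antisymm h2 (Polynomial.le_natDegree_of_ne_zero (by rw [h1]; exact one_ne_zero))
    have hd₀ : Q₀.degree = Fintype.card (Cos N) := by
      rw [Polynomial.degree_eq_natDegree hm₀.ne_zero, hn₀, ← Polynomial.degree_eq_natDegree hm.ne_zero, hd]
    have hr₀ : Q₀.eval₂ (jev κ₀) (UserU κ₀ N) = 0 := by
      rw [hQ₀, ← lmapB_eval₂, coeffMap_UserU, hr, map_zero]
    have heq : Q = Q₀.map (Polynomial.mapRingHom (algebraMap κ₀ κ)) := by
      rw [← sub_eq_zero]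
      apply h.indep
      · rw [← hd]
        apply Polynomial.degree_sub_lt_left
        · rw [hd, hm₀.degree_map, hd₀]
        · exact hm.ne_zero
        · rw [hm.leadingCoeff, (hm₀.map _).leadingCoeff]
      · rw [Polynomial.eval₂_sub, hr, ← coeffMap_UserU N (algebraMap κ₀ κ), ← coeffMap_eval₂_jev, hr₀,
          map_zero, sub_zero]
    refine ⟨Q₀, hm₀, hd₀, hr₀, fun h0 => hder ?_⟩
    rw [heq, Polynomial.derivative_map, ← coeffMap_UserU N (algebraMap κ₀ κ), ← coeffMap_eval₂_jev, h0,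
      map_zero]
  jt t _ ht := by
    obtain ⟨w, z, hw, hwz⟩ := h.jt t ht
    rw [← coeffMap_UserU N (algebraMap κ₀ κ)] at hw hwz
    rw [← coeffMap_jqModC (algebraMap κ₀ κ), ← coeffMap_qExpand'] at hwz
    exact descend_relation hw hwz
  u := by
    obtain ⟨w, z, hw, hwz⟩ := h.u
    rw [← coeffMap_UserU N (algebraMap κ₀ κ)] at hwz
    rw [← coeffMap_jqModC (algebraMap κ₀ κ), ← coeffMap_qExpand'] at hw hwz
    exact descend_relation hw hwz

/-- base change of base data along a field extension -/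
theorem BaseData.extend {κ₀ κ : Type*} [Field κ₀] [Field κ] [Algebra κ₀ κ] (h : BaseData N κ₀) :
    BaseData N κ where
  indep P hdeg hP := by
    rw [← coeffMap_UserU N (algebraMap κ₀ κ)] at hP
    exact extend_indep h.indep P hdeg hP
  poly := by
    obtain ⟨Q, hm, hd, hr, hder⟩ := h.poly
    refine ⟨Q.map (Polynomial.mapRingHom (algebraMap κ₀ κ)), hm.map _, by rw [hm.degree_map, hd], ?_, ?_⟩
    · rw [← coeffMap_UserU N (algebraMap κ₀ κ), ← coeffMap_eval₂_jev, hr, map_zero]
    · rw [Polynomial.derivative_map, ← coeffMap_UserU N (algebraMap κ₀ κ), ← coeffMap_eval₂_jev,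
        Ne, map_eq_zero_iff _ (coeffMap_injective _ (algebraMap κ₀ κ).injective)]
      exact hder
  jt t _ ht := by
    obtain ⟨w, z, hw, hwz⟩ := h.jt t ht
    refine ⟨w.map (Polynomial.mapRingHom (algebraMap κ₀ κ)), z.map (Polynomial.mapRingHom (algebraMap κ₀ κ)), ?_, ?_⟩
    · rw [← coeffMap_UserU N (algebraMap κ₀ κ), ← coeffMap_eval₂_jev,
        Ne, map_eq_zero_iff _ (coeffMap_injective _ (algebraMap κ₀ κ).injective)]
      exact hw
    · rw [← coeffMap_UserU N (algebraMap κ₀ κ), ← coeffMap_jqModC (algebraMap κ₀ κ), ← coeffMap_qExpand',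
        ← coeffMap_eval₂_jev, ← coeffMap_eval₂_jev, ← map_mul, hwz]
  u := by
    obtain ⟨w, z, hw, hwz⟩ := h.u
    refine ⟨w.map (Polynomial.mapRingHom (algebraMap κ₀ κ)), z.map (Polynomial.mapRingHom (algebraMap κ₀ κ)), ?_, ?_⟩
    · rw [← coeffMap_jqModC (algebraMap κ₀ κ), ← coeffMap_qExpand', ← coeffMap_eval₂_jev,
        Ne, map_eq_zero_iff _ (coeffMap_injective _ (algebraMap κ₀ κ).injective)]
      exact hw
    · rw [← coeffMap_UserU N (algebraMap κ₀ κ), ← coeffMap_jqModC (algebraMap κ₀ κ), ← coeffMap_qExpand',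
        ← coeffMap_eval₂_jev, ← coeffMap_eval₂_jev, ← map_mul, hwz]

section source
variable {R : Type*} [CommRing R] [Algebra R ℂ] (hR : GoodRing N R)
  (hinj : Function.Injective (algebraMap R ℂ)) {κ : Type} [Field κ] (ρ : R →+* κ)

include hinj in
/-- Lagrange interpolation modulo a place -/
theorem lagrange_gen {f g : ℍ → ℂ} (hf : IsMod N R f) (hg : IsMod N R g) (yf yg : expRing 1 R)
    (hyf : ∀ τ, evAt τ yf = f τ) (hyg : ∀ τ, evAt τ yg = g τ)
    (hne : ∀ c : Cos N, c ≠ QuotientGroup.mk 1 →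
      coeffMap ρ (serHom (hf.conj (QuotientGroup.mk 1))) ≠ coeffMap ρ (serHom (hf.conj c))) :
    ∃ w z : κ[X][X], w.eval₂ (jev κ) (coeffMap ρ (serHom yf)) ≠ 0 ∧
      coeffMap ρ (serHom yg) * w.eval₂ (jev κ) (coeffMap ρ (serHom yf)) =
        z.eval₂ (jev κ) (coeffMap ρ (serHom yf)) := by
  classical
  have h1 := isMod_const (N := N) (1 : R)
  obtain ⟨Gg, hGg, -, -⟩ := exists_lift hinj (PhiG hf hg) (PhiG_inv hf hg)
  obtain ⟨G1, hG1, -, -⟩ := exists_lift hinj (PhiG hf h1) (PhiG_inv hf h1)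
  set W := ∏ c' ∈ Finset.univ.erase (QuotientGroup.mk 1 : Cos N),
    (hf.conj (QuotientGroup.mk 1) - hf.conj c') with hW
  have hWne : coeffMap ρ (serHom W) ≠ 0 := by
    rw [hW, map_prod, map_prod, Finset.prod_ne_zero_iff]
    intro c hc
    rw [map_sub, map_sub, sub_ne_zero]
    exact hne c (Finset.ne_of_mem_erase hc)
  have hconst : serHom (h1.conj (QuotientGroup.mk 1)) = 1 := by
    have h2 := h1.conj_one hinj 1 (fun τ => by rw [map_one, map_one])
    rw [h2, map_one, map_one]
  have hev : ∀ (G : R[X][X]) {g : ℍ → ℂ} (hg : IsMod N R g), G.map (polyHom N R) = PhiG hf hg →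
      qExpand R N (G.eval₂ (jev R) (serHom yf)) = serHom (hg.conj (QuotientGroup.mk 1)) * serHom W := by
    intro G g hg hG
    have h2 := congrArg serHom (PhiG_eval hf hg (QuotientGroup.mk 1))
    rw [← hG, Polynomial.eval_map, Polynomial.hom_eval₂, hf.conj_one hinj yf hyf, eval₂_qExpand,
      map_mul] at h2
    exact h2
  have e1 := hev G1 h1 hG1
  have eg := hev Gg hg hGg
  rw [hconst, one_mul] at e1
  rw [hg.conj_one hinj yg hyg, ← e1, ← map_mul] at eg
  have eg' := qExpand_injective N eg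
  refine ⟨G1.map (Polynomial.mapRingHom ρ), Gg.map (Polynomial.mapRingHom ρ), ?_, ?_⟩
  · rw [← coeffMap_eval₂_jev]
    intro h
    apply hWne
    rw [← e1, coeffMap_qExpand', h, map_zero]
  · rw [← coeffMap_eval₂_jev, ← coeffMap_eval₂_jev, ← map_mul, eg']

lemma order_jqModC {k : Type*} [Field k] : (jqModC k).order = -1 := by
  apply order_eq_of
  · rw [coeff_jqModC_neg_one]; exact one_ne_zero
  · intro j hj
    exact coeff_jqModC_of_lt k hj

include hinj in
/-- conjugates of `j_N` have different pole orders -/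
lemma order_conj_jN (g : SL(2, ℤ)) :
    (coeffMap ρ (serHom ((isMod_jscl hR (Nat.pos_of_ne_zero (NeZero.ne N)) dvd_rfl).conj
      (QuotientGroup.mk g)))).order =
      -((Nat.gcd N ((g⁻¹ : SL(2, ℤ)) 1 0).natAbs : ℕ) : ℤ) ^ 2 := by
  have ht : 0 < N := Nat.pos_of_ne_zero (NeZero.ne N)
  obtain ⟨dec⟩ := Dec.exists N ht g⁻¹
  obtain ⟨s, hs, ζ, φ, h1, h2, h3⟩ := hR.exists_subst ht dvd_rfl dec
  have h4 : (isMod_jscl hR ht dvd_rfl).conj (QuotientGroup.mk g) = φ (jel1 R) := by
    apply fnHom_injective hinj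
    ext τ
    have h5 := (isMod_jscl hR ht dvd_rfl).conj_mk g τ
    rw [dec.jfun_scl ht τ] at h5
    exact h5.trans (h2 (jel1 R) τ).symm
  rw [h4, h3, coeffMap_lsubst]
  have h5 : coeffMap ρ (serHom (jel1 R)) = jqModC κ := coeffMap_jqModC ρ
  rw [h5, order_lsubst _ _ (jqModC_ne_zero_of_nontrivial κ), order_jqModC]
  have h6 : s = dec.A ^ 2 := Nat.eq_of_mul_eq_mul_left ht (by rw [← h1]; ring)
  rw [h6, ← dec.hA]
  push_cast; ring

include hinj in
lemma conj_jN_ne {c : Cos N} (hc : c ≠ QuotientGroup.mk 1) :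
    coeffMap ρ (serHom ((isMod_jscl hR (Nat.pos_of_ne_zero (NeZero.ne N)) dvd_rfl).conj
      (QuotientGroup.mk 1))) ≠
    coeffMap ρ (serHom ((isMod_jscl hR (Nat.pos_of_ne_zero (NeZero.ne N)) dvd_rfl).conj c)) := by
  induction c using QuotientGroup.induction_on with
  | H g =>
    intro h
    have h1 := congrArg HahnSeries.order h
    rw [order_conj_jN hR hinj ρ, order_conj_jN hR hinj ρ] at h1
    have h2 : ((1⁻¹ : SL(2, ℤ)) 1 0).natAbs = 0 := by simp
    rw [h2, Nat.gcd_zero_right] at h1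
    have h3 : Nat.gcd N ((g⁻¹ : SL(2, ℤ)) 1 0).natAbs = N := by
      have h4 : ((N : ℕ) : ℤ) ^ 2 = ((Nat.gcd N ((g⁻¹ : SL(2, ℤ)) 1 0).natAbs : ℕ) : ℤ) ^ 2 := by
        linarith
      have h5 := (sq_eq_sq₀ (by positivity) (by positivity)).mp h4
      exact_mod_cast h5.symm
    apply hc
    rw [QuotientGroup.eq, mul_one, Gamma0_iff_dvd]
    exact Int.natCast_dvd.mpr (Nat.gcd_eq_left_iff_dvd.mp h3)

include hR hinj ρ in
/-- base data over the residue field -/
theorem baseData_of_place : BaseData N κ where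
  indep P hdeg hP := keyK hR hinj ρ hdeg hP
  poly := by
    classical
    have : Nontrivial (expRing N R) := by
      refine ⟨⟨0, 1, fun h => ?_⟩⟩
      have := congrArg (coeffMap ρ) (congrArg serHom h)
      simp at this
    have hev : ((Qpoly hR hinj).map (Polynomial.mapRingHom ρ)).eval₂ (jev κ) (UserU κ N) = 0 := by
      rw [← coeffMap_UserU N ρ, ← coeffMap_eval₂_jev, Qpoly_eval, map_zero]
    refine ⟨(Qpoly hR hinj).map (Polynomial.mapRingHom ρ), (Qpoly_monic hR hinj).map _,
      by rw [(Qpoly_monic hR hinj).degree_map, Qpoly_degree], hev, ?_⟩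
    intro h0
    have h1 := congrArg (qExpand κ N) h0
    rw [Polynomial.hom_eval₂, map_zero, ← Polynomial.eval_map, ← Polynomial.derivative_map,
      Qpoly_map_map, Polynomial.derivative_prod_finset] at h1
    have hU1 : qExpand κ N (UserU κ N : LaurentSeries κ) = ubar hR ρ (QuotientGroup.mk 1) := by
      rw [ubar, serHom_conj_one hR hinj, coeffMap_qExpand', coeffMap_UserU]
    rw [hU1, Polynomial.eval_finsetSum, Finset.sum_eq_single (QuotientGroup.mk 1)] at h1
    · rw [Polynomial.eval_mul, Polynomial.eval_prod, Polynomial.derivative_X_sub_C, Polynomial.eval_one,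
        mul_one, Finset.prod_eq_zero_iff] at h1
      obtain ⟨c, hc, hc0⟩ := h1
      rw [Polynomial.eval_sub, Polynomial.eval_X, Polynomial.eval_C, sub_eq_zero] at hc0
      exact conj_ne hR hinj (Finset.ne_of_mem_erase hc) ρ hc0
    · intro c _ hc
      rw [Polynomial.eval_mul, Polynomial.eval_prod, Finset.prod_eq_zero (i := QuotientGroup.mk 1), zero_mul]
      · exact Finset.mem_erase.mpr ⟨hc.symm, Finset.mem_univ _⟩
      · rw [Polynomial.eval_sub, Polynomial.eval_X, Polynomial.eval_C, sub_self]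
    · intro h; exact absurd (Finset.mem_univ _) h
  jt t _ ht := by
    have htp : 0 < t := Nat.pos_of_ne_zero (NeZero.ne t)
    obtain ⟨w, z, hw, hwz⟩ := lagrange_gen hinj ρ (isMod_Ufun hR) (isMod_jscl hR htp ht) (UE N R)
      (sclHom R t htp (jel1 R)) (evAt_UE N R) (fun τ => by rw [sclHom_fn]; rfl)
      (fun c hc => conj_ne hR hinj hc ρ)
    have h1 : serHom (UE N R : expRing 1 R) = (UserU R N : LaurentSeries R) := by
      rw [← serU_UE N R]; rfl
    have h2 : coeffMap ρ (serHom (sclHom R t htp (jel1 R))) = qExpand κ t (jqModC κ) := by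
      rw [sclHom_ser, coeffMap_qExpand']
      congr 1
      exact coeffMap_jqModC ρ
    rw [h1, coeffMap_UserU] at hw hwz
    rw [h2] at hwz
    exact ⟨w, z, hw, hwz⟩
  u := by
    have htp : 0 < N := Nat.pos_of_ne_zero (NeZero.ne N)
    obtain ⟨w, z, hw, hwz⟩ := lagrange_gen hinj ρ (isMod_jscl hR htp dvd_rfl) (isMod_Ufun hR)
      (sclHom R N htp (jel1 R)) (UE N R) (fun τ => by rw [sclHom_fn]; rfl) (evAt_UE N R)
      (fun c hc => conj_jN_ne hR hinj ρ hc)
    have h1 : serHom (UE N R : expRing 1 R) = (UserU R N : LaurentSeries R) := by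
      rw [← serU_UE N R]; rfl
    have h2 : coeffMap ρ (serHom (sclHom R N htp (jel1 R))) = qExpand κ N (jqModC κ) := by
      rw [sclHom_ser, coeffMap_qExpand']
      congr 1
      exact coeffMap_jqModC ρ
    rw [h1, coeffMap_UserU] at hwz
    rw [h2] at hw hwz
    exact ⟨w, z, hw, hwz⟩

end source

/-- base data in characteristic zero -/
theorem baseData_charZero (N : ℕ) [NeZero N] (k : Type*) [Field k] [CharZero k] : BaseData N k := by
  have h1 : BaseData N ℂ := baseData_of_place (R := ℂ) goodRing_complex (fun _ _ h => h) (RingHom.id ℂ)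
  have h2 : BaseData N ℚ := h1.descend
  let : Algebra ℚ k := DivisionRing.toRatAlgebra
  exact h2.extend

/-- base data in characteristic `ℓ ∤ N` -/
theorem baseData_charP (N : ℕ) [NeZero N] (ℓ : ℕ) [Fact ℓ.Prime] (hN : ¬ ℓ ∣ N) (k : Type*) [Field k]
    [CharP k ℓ] : BaseData N k := by
  obtain ⟨O, hO⟩ := exists_valSubring ℓ
  have hR : GoodRing N O := goodRing_O hO hN
  have hinj : Injective (algebraMap O ℂ) := fun _ _ h => Subtype.ext h
  let κ := IsLocalRing.ResidueField O
  let ρ : O →+* κ := IsLocalRing.residue O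
  have h1 : BaseData N κ := baseData_of_place hR hinj ρ
  have hchar : CharP κ ℓ := by
    have h1 : ((ℓ : ℕ) : κ) = 0 := by
      have h2 : ρ (ℓ : O) = 0 := (IsLocalRing.residue_eq_zero_iff _).mpr hO
      rwa [map_natCast] at h2
    exact (CharP.charP_iff_prime_eq_zero (Fact.out : ℓ.Prime)).mpr h1
  let : Algebra (ZMod ℓ) κ := ZMod.algebra κ ℓ
  have h2 : BaseData N (ZMod ℓ) := h1.descend
  let : Algebra (ZMod ℓ) k := ZMod.algebra k ℓ
  exact h2.extend

end Fermat.Agent.RedQ
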