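import Fermat.Agent.Igusa.CharPoly
set_option autoImplicit false
set_option linter.unusedSectionVars false

noncomputable section
open UpperHalfPlane Function Filter ModularCurve

namespace Fermat.Agent.RedQ

open Fermat.Agent.Igusa

section psS
variable {R : Type*} [CommRing R] (s : ℕ) [NeZero s]

lemma ofPS_inj {a b : PowerSeries R} (h : HahnSeries.ofPowerSeries ℤ R a = HahnSeries.ofPowerSeries ℤ R b) :
    a = b := HahnSeries.ofPowerSeries_injective h

/-- `q ↦ q ^ s` on power series -/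
def psS : PowerSeries R →+* PowerSeries R where
  toFun := psSubst s 1
  map_one' := by
    apply ofPS_inj
    rw [← lsubst_ofPowerSeries, map_one, map_one]
  map_mul' a b := by
    apply ofPS_inj
    rw [map_mul, ← lsubst_ofPowerSeries, ← lsubst_ofPowerSeries, ← lsubst_ofPowerSeries, map_mul, map_mul]
  map_zero' := by
    apply ofPS_inj
    rw [← lsubst_ofPowerSeries, map_zero, map_zero]
  map_add' a b := by
    apply ofPS_inj
    rw [map_add, ← lsubst_ofPowerSeries, ← lsubst_ofPowerSeries, ← lsubst_ofPowerSeries, map_add, map_add]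

lemma ofPS_psS (a : PowerSeries R) :
    HahnSeries.ofPowerSeries ℤ R (psS s a) = qExpand R s (HahnSeries.ofPowerSeries ℤ R a) := by
  have h1 := lsubst_ofPowerSeries s (1 : Rˣ) a
  rw [lsubst_apply, twist_one] at h1
  exact h1.symm

lemma psS_coeff_mul (a : PowerSeries R) (n : ℕ) : (psS s a).coeff (s * n) = a.coeff n := by
  have := psSubst_coeff_mul s (1 : Rˣ) a n
  rw [one_pow, Units.val_one, one_mul] at this
  exact this

lemma psS_coeff_of_not_dvd (a : PowerSeries R) {n : ℕ} (hn : ¬ s ∣ n) : (psS s a).coeff n = 0 := by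
  show (psSubst s 1 a).coeff n = 0
  rw [psSubst, PowerSeries.coeff_mk, if_neg hn]

lemma psS_map {S : Type*} [CommRing S] (f : R →+* S) (a : PowerSeries R) :
    (psS s a).map f = psS s (a.map f) := by
  ext n
  rw [PowerSeries.coeff_map]
  by_cases hn : s ∣ n
  · obtain ⟨m, rfl⟩ := hn
    rw [psS_coeff_mul, psS_coeff_mul, PowerSeries.coeff_map]
  · rw [psS_coeff_of_not_dvd s _ hn, psS_coeff_of_not_dvd s _ hn, map_zero]

/-- if `a` has constant term `1` then `a(q^s) ≡ 1 mod q^s` -/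
lemma X_pow_dvd_psS_sub_one {a : PowerSeries R} (ha : a.coeff 0 = 1) :
    PowerSeries.X ^ s ∣ psS s a - 1 := by
  rw [PowerSeries.X_pow_dvd_iff]
  intro m hm
  rw [map_sub, PowerSeries.coeff_one]
  rcases Nat.eq_zero_or_pos m with rfl | h0
  · have := psS_coeff_mul s a 0
    rw [mul_zero] at this
    rw [this, ha, if_pos rfl, sub_self]
  · rw [psS_coeff_of_not_dvd s a (fun h => absurd (Nat.le_of_dvd h0 h) (by omega)), if_neg h0.ne', sub_zero]

end psS

section coeffs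

lemma prod_range (m : ℕ) : ∃ r : PowerSeries ℤ,
    ∏ i ∈ Finset.range (m + 2), (1 - PowerSeries.X ^ (i + 1) : PowerSeries ℤ) =
      1 - PowerSeries.X - PowerSeries.X ^ 2 + PowerSeries.X ^ 3 * r := by
  induction m with
  | zero =>
    refine ⟨1, ?_⟩
    simp only [Finset.prod_range_succ, Finset.prod_range_zero]
    ring
  | succ m ih =>
    obtain ⟨r, hr⟩ := ih
    refine ⟨r - PowerSeries.X ^ m * (1 - PowerSeries.X - PowerSeries.X ^ 2 + PowerSeries.X ^ 3 * r), ?_⟩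
    rw [Finset.prod_range_succ, hr]
    ring

lemma X3_dvd_etaProd : (PowerSeries.X : PowerSeries ℤ) ^ 3 ∣ etaProd - (1 - PowerSeries.X - PowerSeries.X ^ 2) := by
  rw [PowerSeries.X_pow_dvd_iff]
  intro n hn
  obtain ⟨s, hs⟩ := Filter.eventually_atTop.mp (eventually_coeff_etaProd n)
  obtain ⟨m, hm⟩ : ∃ m, s ⊆ Finset.range (m + 2) := by
    refine ⟨s.sup id, fun i hi => ?_⟩
    have : i ≤ s.sup id := Finset.le_sup (f := id) hi
    rw [Finset.mem_range]; omega
  obtain ⟨r, hr⟩ := prod_range m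
  rw [map_sub, ← hs _ hm, hr, ← map_sub]
  have : (1 - PowerSeries.X - PowerSeries.X ^ 2 + PowerSeries.X ^ 3 * r - (1 - PowerSeries.X - PowerSeries.X ^ 2) :
      PowerSeries ℤ) = PowerSeries.X ^ 3 * r := by ring
  rw [this]
  exact PowerSeries.X_pow_dvd_iff.mp (dvd_mul_right _ _) n hn

lemma X2_dvd_eisenstein4 : (PowerSeries.X : PowerSeries ℤ) ^ 2 ∣ eisenstein4 - (1 + 240 * PowerSeries.X) := by
  rw [PowerSeries.X_pow_dvd_iff]
  intro n hn
  have h240 : (240 : PowerSeries ℤ) = PowerSeries.C (240 : ℤ) := by simp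
  interval_cases n
  · rw [map_sub, map_add, h240, PowerSeries.coeff_C_mul, PowerSeries.coeff_zero_X]
    simp [eisenstein4]
  · rw [map_sub, map_add, h240, PowerSeries.coeff_C_mul, PowerSeries.coeff_one_X, PowerSeries.coeff_one]
    simp [eisenstein4]

/-- the inverse of `∏ (1 - q^n)` -/
def etaInv : PowerSeries ℤ := etaProd.invOfUnit 1

lemma etaProd_mul_inv : etaProd * etaInv = 1 :=
  PowerSeries.mul_invOfUnit _ _ (by rw [constantCoeff_etaProd]; rfl)

lemma coeff_etaProd_zero : etaProd.coeff 0 = 1 := by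
  rw [PowerSeries.coeff_zero_eq_constantCoeff, constantCoeff_etaProd]

lemma coeff_etaInv_zero : etaInv.coeff 0 = 1 := by
  have h := congrArg (PowerSeries.constantCoeff (R := ℤ)) etaProd_mul_inv
  rw [map_mul, constantCoeff_etaProd, one_mul, map_one] at h
  rwa [PowerSeries.coeff_zero_eq_constantCoeff]

lemma unitInv_eq : dedekindEtaUnitInv = etaInv ^ 24 := by
  have h1 : dedekindEtaUnit * etaInv ^ 24 = 1 := by
    rw [dedekindEtaUnit, ← mul_pow, etaProd_mul_inv, one_pow]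
  have h2 := dedekindEtaUnit_mul_inv
  calc dedekindEtaUnitInv = (dedekindEtaUnit * etaInv ^ 24) * dedekindEtaUnitInv := by rw [h1, one_mul]
    _ = (dedekindEtaUnit * dedekindEtaUnitInv) * etaInv ^ 24 := by ring
    _ = etaInv ^ 24 := by rw [h2, one_mul]

/-- the ring `ℤ[[X]] / X^n` -/
abbrev TQ (n : ℕ) : Type := PowerSeries ℤ ⧸ Ideal.span {(PowerSeries.X : PowerSeries ℤ) ^ n}

/-- the projection -/
abbrev tq (n : ℕ) : PowerSeries ℤ →+* TQ n := Ideal.Quotient.mk _

lemma tq_eq_iff {n : ℕ} {a b : PowerSeries ℤ} : tq n a = tq n b ↔ PowerSeries.X ^ n ∣ a - b := by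
  rw [Ideal.Quotient.mk_eq_mk_iff_sub_mem, Ideal.mem_span_singleton]

lemma tq_X_pow {n : ℕ} : (tq n PowerSeries.X) ^ n = 0 := by
  rw [← map_pow, Ideal.Quotient.eq_zero_iff_mem]
  exact Ideal.mem_span_singleton_self _

lemma tq_eta3 : tq 3 etaProd = 1 - tq 3 PowerSeries.X - (tq 3 PowerSeries.X) ^ 2 := by
  have := tq_eq_iff.mpr X3_dvd_etaProd
  simpa using this

lemma tq_eta2 : tq 2 etaProd = 1 - tq 2 PowerSeries.X := by
  have h1 : (PowerSeries.X : PowerSeries ℤ) ^ 2 ∣ etaProd - (1 - PowerSeries.X) := by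
    have h2 := (pow_dvd_pow (PowerSeries.X : PowerSeries ℤ) (show 2 ≤ 3 by norm_num)).trans X3_dvd_etaProd
    have h3 : etaProd - (1 - PowerSeries.X) = (etaProd - (1 - PowerSeries.X - PowerSeries.X ^ 2)) -
      PowerSeries.X ^ 2 := by ring
    rw [h3]
    exact dvd_sub h2 dvd_rfl
  have := tq_eq_iff.mpr h1
  simpa using this

lemma tq_inv2 : tq 2 etaInv = 1 + tq 2 PowerSeries.X := by
  have h1 := congrArg (tq 2) etaProd_mul_inv
  rw [map_mul, map_one, tq_eta2] at h1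
  have hx := tq_X_pow (n := 2)
  linear_combination (1 + tq 2 PowerSeries.X) * h1 + tq 2 etaInv * hx

lemma tq_inv3 : tq 3 etaInv = 1 + tq 3 PowerSeries.X + 2 * (tq 3 PowerSeries.X) ^ 2 := by
  have h1 := congrArg (tq 3) etaProd_mul_inv
  rw [map_mul, map_one, tq_eta3] at h1
  have hx := tq_X_pow (n := 3)
  linear_combination (1 + tq 3 PowerSeries.X + 2 * (tq 3 PowerSeries.X) ^ 2) * h1 +
    (3 + 2 * tq 3 PowerSeries.X) * tq 3 etaInv * hx

lemma one_add_pow_of_sq {A : Type*} [CommRing A] {x : A} (hx : x ^ 2 = 0) (a : A) (n : ℕ) :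
    (1 + a * x) ^ n = 1 + n * a * x := by
  induction n with
  | zero => simp
  | succ n ih =>
    rw [pow_succ, ih]
    push_cast
    linear_combination n * a ^ 2 * hx

lemma tq_jNum : tq 2 jNum = 1 + 744 * tq 2 PowerSeries.X := by
  have hx := tq_X_pow (n := 2)
  have h1 : tq 2 eisenstein4 = 1 + 240 * tq 2 PowerSeries.X := by
    have := tq_eq_iff.mpr X2_dvd_eisenstein4
    rwa [map_add, map_mul, map_one, map_ofNat] at this
  have h2 : tq 2 etaInv = 1 + 1 * tq 2 PowerSeries.X := by rw [tq_inv2, one_mul]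
  rw [jNum, unitInv_eq, map_mul, map_pow, map_pow, h1, h2, one_add_pow_of_sq hx, one_add_pow_of_sq hx]
  push_cast
  linear_combination 17280 * hx

variable (p : ℕ) [NeZero p]

lemma tq_psS {a : PowerSeries ℤ} (ha : a.coeff 0 = 1) {n : ℕ} (hn : n ≤ p) : tq n (psS p a) = 1 := by
  rw [← map_one (tq n), tq_eq_iff]
  exact (pow_dvd_pow _ hn).trans (X_pow_dvd_psS_sub_one p ha)

lemma coeff_jNum_zero : jNum.coeff 0 = 1 := by
  rw [PowerSeries.coeff_zero_eq_constantCoeff, jNum, map_mul, map_pow, constantCoeff_eisenstein4,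
    constantCoeff_dedekindEtaUnitInv, one_pow, one_mul]

/-- the unit part at infinity -/
def uI (p e : ℕ) [NeZero p] : PowerSeries ℤ := etaProd ^ e * (psS p etaInv) ^ e

/-- the unit part at zero -/
def uZ (p e : ℕ) [NeZero p] : PowerSeries ℤ := (psS p etaProd) ^ e * etaInv ^ e

lemma tq_uI (e : ℕ) (hp : 2 ≤ p) : tq 2 (uI p e) = 1 - e * tq 2 PowerSeries.X := by
  have hx := tq_X_pow (n := 2)
  have h1 : tq 2 etaProd = 1 + (-1) * tq 2 PowerSeries.X := by rw [tq_eta2]; ring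
  rw [uI, map_mul, map_pow, map_pow, h1, tq_psS p coeff_etaInv_zero hp, one_pow, mul_one,
    one_add_pow_of_sq hx]
  ring

lemma tq_uZ2 (e : ℕ) (hp : 2 ≤ p) : tq 2 (uZ p e) = 1 + e * tq 2 PowerSeries.X := by
  have hx := tq_X_pow (n := 2)
  have h1 : tq 2 etaInv = 1 + 1 * tq 2 PowerSeries.X := by rw [tq_inv2]; ring
  rw [uZ, map_mul, map_pow, map_pow, h1, tq_psS p coeff_etaProd_zero hp, one_pow, one_mul,
    one_add_pow_of_sq hx]
  ring

lemma tq_uZ3 (hp : 3 ≤ p) :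
    tq 3 (uZ p 12) = 1 + 12 * tq 3 PowerSeries.X + 90 * (tq 3 PowerSeries.X) ^ 2 := by
  have hx := tq_X_pow (n := 3)
  rw [uZ, map_mul, map_pow, map_pow, tq_inv3, tq_psS p coeff_etaProd_zero hp, one_pow, one_mul]
  set x := tq 3 PowerSeries.X
  have h2 : (1 + x + 2 * x ^ 2) ^ 2 = 1 + 2 * x + 5 * x ^ 2 := by
    linear_combination (4 + 4 * x) * hx
  have h3 : (1 + x + 2 * x ^ 2) ^ 3 = 1 + 3 * x + 9 * x ^ 2 := by
    rw [pow_succ, h2]
    linear_combination (9 + 10 * x) * hx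
  have h6 : (1 + x + 2 * x ^ 2) ^ 6 = 1 + 6 * x + 27 * x ^ 2 := by
    rw [show 6 = 3 * 2 from rfl, pow_mul, h3]
    linear_combination (54 + 81 * x) * hx
  rw [show 12 = 6 * 2 from rfl, pow_mul, h6]
  linear_combination (324 + 729 * x) * hx

/-- the relation at infinity, `p = 2` -/
lemma relI2 : (PowerSeries.X : PowerSeries ℤ) ^ 2 ∣
    (uI 2 24 + 256 * PowerSeries.X) ^ 3 - jNum * (uI 2 24) ^ 2 := by
  rw [← sub_zero ((uI 2 24 + 256 * PowerSeries.X) ^ 3 - jNum * (uI 2 24) ^ 2), ← tq_eq_iff]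
  have hx := tq_X_pow (n := 2)
  simp only [map_sub, map_pow, map_add, map_mul, map_zero, map_ofNat, tq_uI 2 24 le_rfl, tq_jNum]
  set x := tq 2 PowerSeries.X
  push_cast
  linear_combination (3 * 232 ^ 2 - 576 + 744 * 48 + (232 ^ 3 - 744 * 576) * x) * hx

/-- the relation at infinity, `p = 3` -/
lemma relI3 : (PowerSeries.X : PowerSeries ℤ) ^ 2 ∣
    (uI 3 12 + 27 * PowerSeries.X) * (uI 3 12 + 243 * PowerSeries.X) ^ 3 - jNum * (uI 3 12) ^ 3 := by
  rw [← sub_zero ((uI 3 12 + 27 * PowerSeries.X) * (uI 3 12 + 243 * PowerSeries.X) ^ 3 -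
    jNum * (uI 3 12) ^ 3), ← tq_eq_iff]
  have hx := tq_X_pow (n := 2)
  simp only [map_sub, map_pow, map_add, map_mul, map_zero, map_ofNat, tq_uI 3 12 (by norm_num), tq_jNum]
  set x := tq 2 PowerSeries.X
  have h1 : (1 - (12 : ℕ) * x + 243 * x) ^ 3 = 1 + 693 * x := by
    push_cast
    linear_combination (3 * 231 ^ 2 + 231 ^ 3 * x) * hx
  have h2 : (1 - (12 : ℕ) * x) ^ 3 = 1 - 36 * x := by
    push_cast
    linear_combination (3 * 12 ^ 2 - 12 ^ 3 * x) * hx
  rw [h1, h2]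
  push_cast
  linear_combination (15 * 693 + 744 * 36) * hx

/-- the relation at zero, `p = 2` -/
lemma relZ2 : (PowerSeries.X : PowerSeries ℤ) ^ 2 ∣
    (1 + 16 * PowerSeries.X * uZ 2 24) ^ 3 - psS 2 jNum * (uZ 2 24) ^ 2 := by
  rw [← sub_zero ((1 + 16 * PowerSeries.X * uZ 2 24) ^ 3 - psS 2 jNum * (uZ 2 24) ^ 2), ← tq_eq_iff]
  have hx := tq_X_pow (n := 2)
  simp only [map_sub, map_pow, map_add, map_mul, map_zero, map_one, map_ofNat, tq_uZ2 2 24 le_rfl,
    tq_psS 2 coeff_jNum_zero le_rfl]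
  set x := tq 2 PowerSeries.X
  have h1 : (1 + 16 * x * (1 + (24 : ℕ) * x)) ^ 3 = 1 + 48 * x := by
    have : 16 * x * (1 + (24 : ℕ) * x) = 16 * x := by push_cast; linear_combination (16 * 24) * hx
    rw [this]
    linear_combination (3 * 16 ^ 2 + 16 ^ 3 * x) * hx
  rw [h1]
  push_cast
  linear_combination (- 576) * hx

/-- the relation at zero, `p = 3` -/
lemma relZ3 : (PowerSeries.X : PowerSeries ℤ) ^ 3 ∣
    (1 + 27 * PowerSeries.X * uZ 3 12) * (1 + 3 * PowerSeries.X * uZ 3 12) ^ 3 - psS 3 jNum * (uZ 3 12) ^ 3 := by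
  rw [← sub_zero ((1 + 27 * PowerSeries.X * uZ 3 12) * (1 + 3 * PowerSeries.X * uZ 3 12) ^ 3 -
    psS 3 jNum * (uZ 3 12) ^ 3), ← tq_eq_iff]
  have hx := tq_X_pow (n := 3)
  simp only [map_sub, map_pow, map_add, map_mul, map_zero, map_one, map_ofNat, tq_uZ3 3 le_rfl,
    tq_psS 3 coeff_jNum_zero le_rfl]
  set x := tq 3 PowerSeries.X
  have h0 : x * (1 + 12 * x + 90 * x ^ 2) = x + 12 * x ^ 2 := by linear_combination 90 * hx
  rw [mul_assoc 27, mul_assoc 3, h0]
  have h1 : (1 + 3 * (x + 12 * x ^ 2)) ^ 3 = 1 + 9 * x + 135 * x ^ 2 := by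
    linear_combination (27 + 648 + 972 * x + 3888 * x ^ 1 + (27 * 12 ^ 3) * x ^ 3 + 11664 * x ^ 2) * hx
  have h2 : (1 + 12 * x + 90 * x ^ 2) ^ 3 = 1 + 36 * x + 702 * x ^ 2 := by
    linear_combination (8208 + 63180 * x + 291600 * x ^ 2 + 729000 * x ^ 3) * hx
  rw [h1, h2]
  linear_combination (6561 + 43740 * x) * hx

end coeffs

end Fermat.Agent.RedQ
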