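import Fermat.Agent.Igusa.Descent
set_option autoImplicit false
set_option linter.unusedSectionVars false

noncomputable section
open UpperHalfPlane Function Filter ModularCurve Polynomial
open scoped Topology Manifold MatrixGroups ModularForm

namespace Fermat.Agent.RedQ

open Fermat.Agent.Igusa

section functional
variable {κ₀ κ : Type*} [Field κ₀] [Field κ] [Algebra κ₀ κ]

/-- coefficientwise application as an additive map -/
def lmapB {A B : Type*} [AddCommGroup A] [AddCommGroup B] (g : A →+ B) : HahnSeries ℤ A →+ HahnSeries ℤ B where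
  toFun := lmap g
  map_zero' := by ext; simp
  map_add' p q := by ext; simp

@[simp] lemma lmapB_coeff {A B : Type*} [AddCommGroup A] [AddCommGroup B] (g : A →+ B)
    (x : HahnSeries ℤ A) (i : ℤ) : (lmapB g x).coeff i = g (x.coeff i) := rfl

variable (lam : κ →ₗ[κ₀] κ₀)

lemma lmapB_mul (y : LaurentSeries κ₀) (x : LaurentSeries κ) :
    lmapB lam.toAddMonoidHom (coeffMap (algebraMap κ₀ κ) y * x) = y * lmapB lam.toAddMonoidHom x := by
  ext n
  rw [lmapB_coeff]
  rw [HahnSeries.coeff_mul_left' (s := y.support) y.isPWO_support (by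
    intro m hm
    rw [HahnSeries.mem_support, coeffMap_coeff] at hm
    rw [HahnSeries.mem_support]
    intro h; exact hm (by rw [h, map_zero]))]
  rw [HahnSeries.coeff_mul_right' (s := x.support) x.isPWO_support (by
    intro m hm
    rw [HahnSeries.mem_support, lmapB_coeff] at hm
    rw [HahnSeries.mem_support]
    intro h; exact hm (by rw [h, map_zero]))]
  rw [map_sum]
  refine Finset.sum_congr rfl fun ij _ => ?_
  rw [coeffMap_coeff, lmapB_coeff]
  show lam (algebraMap κ₀ κ (y.coeff ij.1) * x.coeff ij.2) = y.coeff ij.1 * lam (x.coeff ij.2)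
  rw [← Algebra.smul_def, map_smul, smul_eq_mul]

lemma lmapB_C (a : κ) : lmapB lam.toAddMonoidHom (HahnSeries.C a) = HahnSeries.C (lam a) := by
  ext n
  rw [lmapB_coeff, HahnSeries.C_apply, HahnSeries.C_apply, HahnSeries.coeff_single, HahnSeries.coeff_single]
  split_ifs
  · rfl
  · exact map_zero _

lemma lmapB_eval₂ (P : κ[X][X]) (x : LaurentSeries κ₀) :
    lmapB lam.toAddMonoidHom (P.eval₂ (jev κ) (coeffMap (algebraMap κ₀ κ) x)) =
      (pmap (pmap lam.toAddMonoidHom) P).eval₂ (jev κ₀) x := by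
  have key : (lmapB lam.toAddMonoidHom).comp
      ((Polynomial.eval₂RingHom (jev κ) (coeffMap (algebraMap κ₀ κ) x)) : κ[X][X] →+ LaurentSeries κ) =
      ((Polynomial.eval₂RingHom (jev κ₀) x) : κ₀[X][X] →+ LaurentSeries κ₀).comp
        (pmap (pmap lam.toAddMonoidHom)) := by
    apply Polynomial.addHom_ext'
    intro i
    apply Polynomial.addHom_ext
    intro j a
    simp only [AddMonoidHom.comp_apply, LinearMap.toAddMonoidHom_coe, AddMonoidHom.coe_coe,
      Polynomial.coe_eval₂RingHom, Polynomial.eval₂_monomial, pmap_monomial, jev]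
    rw [← coeffMap_jqModC (algebraMap κ₀ κ), ← map_pow, ← map_pow, mul_assoc, mul_comm (HahnSeries.C a),
      ← map_mul, lmapB_mul, lmapB_C]
    ring
  exact DFunLike.congr_fun key P

/-- descent of linear relations -/
theorem descend_relation {x y : LaurentSeries κ₀} {w z : κ[X][X]}
    (hw : w.eval₂ (jev κ) (coeffMap (algebraMap κ₀ κ) x) ≠ 0)
    (hwz : coeffMap (algebraMap κ₀ κ) y * w.eval₂ (jev κ) (coeffMap (algebraMap κ₀ κ) x) =
      z.eval₂ (jev κ) (coeffMap (algebraMap κ₀ κ) x)) :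
    ∃ w₀ z₀ : κ₀[X][X], w₀.eval₂ (jev κ₀) x ≠ 0 ∧
      y * w₀.eval₂ (jev κ₀) x = z₀.eval₂ (jev κ₀) x := by
  obtain ⟨m, hm⟩ : ∃ m, (w.eval₂ (jev κ) (coeffMap (algebraMap κ₀ κ) x)).coeff m ≠ 0 := by
    by_contra hcon
    push Not at hcon
    exact hw (HahnSeries.ext (funext hcon))
  obtain ⟨lam, hlam⟩ : ∃ lam : κ →ₗ[κ₀] κ₀,
      lam ((w.eval₂ (jev κ) (coeffMap (algebraMap κ₀ κ) x)).coeff m) ≠ 0 := by
    by_contra hcon
    push Not at hcon
    exact hm ((Module.forall_dual_apply_eq_zero_iff κ₀ _).mp hcon)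
  refine ⟨pmap (pmap lam.toAddMonoidHom) w, pmap (pmap lam.toAddMonoidHom) z, ?_, ?_⟩
  · rw [← lmapB_eval₂]
    intro h
    have h2 := congrArg (fun x => HahnSeries.coeff x m) h
    exact hlam h2
  · rw [← lmapB_eval₂, ← lmapB_eval₂, ← hwz, ← lmapB_mul]

/-- base change of linear independence -/
theorem extend_indep {x : LaurentSeries κ₀} {n : ℕ}
    (h : ∀ P : κ₀[X][X], P.degree < n → P.eval₂ (jev κ₀) x = 0 → P = 0)
    (P : κ[X][X]) (hdeg : P.degree < n)
    (hP : P.eval₂ (jev κ) (coeffMap (algebraMap κ₀ κ) x) = 0) : P = 0 := by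
  ext i j
  rw [Polynomial.coeff_zero, Polynomial.coeff_zero, ← Module.forall_dual_apply_eq_zero_iff κ₀]
  intro lam
  have h1 : pmap (pmap lam.toAddMonoidHom) P = 0 := by
    apply h
    · rw [Polynomial.degree_lt_iff_coeff_zero] at hdeg ⊢
      intro m hm
      rw [pmap_coeff, hdeg m hm, map_zero]
    · rw [← lmapB_eval₂, hP, map_zero]
  have h2 := congrArg (fun p => Polynomial.coeff (Polynomial.coeff p i) j) h1
  simpa using h2

end functional

end Fermat.Agent.RedQ
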