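import Fermat.Agent.RedQ.EtaSer
set_option autoImplicit false
set_option linter.unusedSectionVars false

noncomputable section
open UpperHalfPlane Function Filter ModularCurve Polynomial
open scoped Topology Manifold MatrixGroups ModularForm

namespace Fermat.Agent.RedQ

open Fermat.Agent.Igusa

local notation "𝕢" => Periodic.qParam
local notation "Δ" => ModularForm.discriminant

section eta

/-- the product part of `η` -/
def etaPf (τ : ℍ) : ℂ := ∏' n : ℕ, (1 - (𝕢 ((1 : ℕ) : ℝ) (τ : ℂ)) ^ (n + 1))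

lemma eta_eq (τ : ℍ) : ModularForm.eta τ = 𝕢 24 (τ : ℂ) * etaPf τ := by
  rw [ModularForm.eta, etaPf, Nat.cast_one]

lemma etaPf_ne (τ : ℍ) : etaPf τ ≠ 0 := by
  have := ModularForm.eta_tprod_ne_zero τ.2
  rw [etaPf, Nat.cast_one]
  exact this

variable (R : Type*) [CommRing R]

/-- series of the product part of `η` -/
def etaCs : LaurentSeries R := HahnSeries.ofPowerSeries ℤ R (etaProd.map (Int.castRingHom R))

/-- series of the inverse of the product part of `η` -/
def etaICs : LaurentSeries R := HahnSeries.ofPowerSeries ℤ R (etaInv.map (Int.castRingHom R))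

lemma etaCs_mul_inv : etaCs R * etaICs R = 1 := by
  rw [etaCs, etaICs, ← map_mul, ← map_mul, etaProd_mul_inv, map_one, map_one]

variable {R} in
lemma coeffMap_etaCs {S : Type*} [CommRing S] (f : R →+* S) : coeffMap f (etaCs R) = etaCs S :=
  coeffMap_ofPS f _

variable {R} in
lemma coeffMap_etaICs {S : Type*} [CommRing S] (f : R →+* S) : coeffMap f (etaICs R) = etaICs S :=
  coeffMap_ofPS f _

lemma hasExp_etaPf : HasExp 1 etaPf (etaCs ℂ) := by
  exact HasExp.of_psConv (etaProd_conv 1)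

variable [Algebra R ℂ]

/-- the product part of `η` as a unit of the expansion ring -/
def etaU : (expRing 1 R)ˣ where
  val := ⟨(etaPf, etaCs R), by
    rw [mem_expRing, coeffMap_etaCs]
    exact hasExp_etaPf⟩
  inv := ⟨(fun τ => (etaPf τ)⁻¹, etaICs R), by
    rw [mem_expRing, coeffMap_etaICs]
    have := hasExp_etaPf.inv etaPf_ne
    rwa [inv_eq_of_mul_eq_one_right (etaCs_mul_inv ℂ)] at this⟩
  val_inv := by
    ext1
    refine Prod.ext ?_ (etaCs_mul_inv R)
    ext τ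
    exact mul_inv_cancel₀ (etaPf_ne τ)
  inv_val := by
    ext1
    refine Prod.ext ?_ ?_
    · ext τ
      exact inv_mul_cancel₀ (etaPf_ne τ)
    · exact (mul_comm _ _).trans (etaCs_mul_inv R)

lemma evAt_etaU (τ : ℍ) : evAt τ (etaU R : expRing 1 R) = etaPf τ := rfl
lemma evAt_etaU_inv (τ : ℍ) : evAt τ ((etaU R)⁻¹ : (expRing 1 R)ˣ).1 = (etaPf τ)⁻¹ := rfl
lemma serHom_etaU : serHom (etaU R : expRing 1 R) = etaCs R := rfl
lemma serHom_etaU_inv : serHom ((etaU R)⁻¹ : (expRing 1 R)ˣ).1 = etaICs R := rfl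

/-- powers of `q_h` in the expansion ring -/
def qz (h : ℕ) [NeZero h] (k : ℤ) : expRing h R := ⟨(fun τ => (𝕢 h (τ : ℂ)) ^ k, HahnSeries.single k 1), by
  rw [mem_expRing]
  have := HasExp.qzpow (h := h) k
  convert this using 1
  exact (coeffMap_single _ _ _).trans (by rw [map_one])⟩

lemma evAt_qz (h : ℕ) [NeZero h] (k : ℤ) (τ : ℍ) : evAt τ (qz R h k) = (𝕢 h (τ : ℂ)) ^ k := rfl
lemma serHom_qz (h : ℕ) [NeZero h] (k : ℤ) : serHom (qz R h k) = HahnSeries.single k 1 := rfl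

variable (p e : ℕ) [NeZero p]

lemma p_pos : 0 < p := Nat.pos_of_ne_zero (NeZero.ne p)

/-- the Hauptmodul function -/
def tf (τ : ℍ) : ℂ := (𝕢 ((1 : ℕ) : ℝ) (τ : ℂ)) ^ (-1 : ℤ) * etaPf τ ^ e * ((etaPf (scl p (p_pos p) τ))⁻¹) ^ e

/-- its companion at the cusp zero -/
def sf (τ : ℍ) : ℂ := (𝕢 (p : ℝ) (τ : ℂ)) ^ (1 : ℤ) * etaPf τ ^ e * ((etaPf (aff 1 0 p one_pos (p_pos p) τ))⁻¹) ^ e

/-- the Hauptmodul as an element of the expansion ring -/
def tE : expRing 1 R := qz R 1 (-1) * (etaU R : expRing 1 R) ^ e *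
  (sclHom R p (p_pos p) ((etaU R)⁻¹ : (expRing 1 R)ˣ).1) ^ e

/-- `τ ↦ τ / p` -/
def dnHom : expRing 1 R →+* expRing p R :=
  substHom (aff 1 0 p one_pos (p_pos p)) 1 1 (fun τ => by
    have hp : (p : ℂ) ≠ 0 := by exact_mod_cast NeZero.ne p
    rw [Units.val_one, map_one, one_mul, coe_aff, Periodic.qParam, Periodic.qParam, pow_one]
    congr 1
    push_cast
    field_simp
    ring)

/-- companion as an element of the expansion ring -/
def sE : expRing p R := qz R p 1 * (upHom p R (etaU R : expRing 1 R)) ^ e *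
  (dnHom R p ((etaU R)⁻¹ : (expRing 1 R)ˣ).1) ^ e

lemma evAt_tE (τ : ℍ) : evAt τ (tE R p e) = tf p e τ := by
  rw [tE, map_mul, map_mul, map_pow, map_pow, sclHom_fn, evAt_qz]
  rfl

lemma evAt_sE (τ : ℍ) : evAt τ (sE R p e) = sf p e τ := by
  rw [sE, map_mul, map_mul, map_pow, map_pow, evAt_qz, upHom_fn]
  rfl

variable {R} in
omit [Algebra R ℂ] in
lemma ofPS_map (a : PowerSeries ℤ) (n : ℕ) : HahnSeries.ofPowerSeries ℤ R ((a ^ n).map (Int.castRingHom R)) =
    (HahnSeries.ofPowerSeries ℤ R (a.map (Int.castRingHom R))) ^ n := by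
  rw [map_pow, map_pow]

omit [Algebra R ℂ] in
lemma ofPS_psS' (a : PowerSeries ℤ) : HahnSeries.ofPowerSeries ℤ R ((psS p a).map (Int.castRingHom R)) =
    qExpand R p (HahnSeries.ofPowerSeries ℤ R (a.map (Int.castRingHom R))) := by
  rw [psS_map, ofPS_psS]

/-- the series of the Hauptmodul -/
def hauptC (R : Type*) [CommRing R] (p e : ℕ) [NeZero p] : LaurentSeries R :=
  HahnSeries.single (-1 : ℤ) 1 * HahnSeries.ofPowerSeries ℤ R ((uI p e).map (Int.castRingHom R))

omit [Algebra R ℂ] in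
variable {R} in
lemma coeffMap_hauptC {S : Type*} [CommRing S] (f : R →+* S) : coeffMap f (hauptC R p e) = hauptC S p e := by
  rw [hauptC, map_mul, coeffMap_single, map_one, coeffMap_ofPS, hauptC]

omit [Algebra R ℂ] in
lemma hauptC_eq : hauptC R p e = HahnSeries.single (-1 : ℤ) 1 * etaCs R ^ e * (qExpand R p (etaICs R)) ^ e := by
  rw [hauptC, uI, map_mul, map_mul, ofPS_map, ofPS_map, ofPS_psS', ← mul_assoc]
  rfl

lemma serHom_tE : serHom (tE R p e) = hauptC R p e := by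
  rw [tE, map_mul, map_mul, map_pow, map_pow, sclHom_ser, serHom_qz, hauptC_eq]
  rfl

lemma serHom_dnHom (x : expRing 1 R) : serHom (dnHom R p x) = serHom x := by
  have : serHom (dnHom R p x) = lsubst 1 1 (serHom x) := rfl
  rw [this, lsubst_apply, twist_one, qExpand_one_apply]

lemma serHom_sE : serHom (sE R p e) = HahnSeries.single (1 : ℤ) 1 *
    HahnSeries.ofPowerSeries ℤ R ((uZ p e).map (Int.castRingHom R)) := by
  rw [sE, map_mul, map_mul, map_pow, map_pow, upHom_ser, serHom_qz, serHom_dnHom, uZ, map_mul, map_mul,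
    ofPS_map, ofPS_map, ofPS_psS', ← mul_assoc]
  rfl

/-- elements of the level-`h` expansion ring are `h`-periodic -/
lemma evAt_T_pow (h : ℕ) [NeZero h] (k : ℤ) (x : expRing h R) (τ : ℍ) :
    evAt ((ModularGroup.T ^ ((h : ℤ) * k) : SL(2, ℤ)) • τ) x = evAt τ x := by
  have hh : (h : ℂ) ≠ 0 := by exact_mod_cast NeZero.ne h
  let φ : expRing h R →+* expRing h R :=
    substHom (fun τ => (ModularGroup.T ^ ((h : ℤ) * k) : SL(2, ℤ)) • τ) 1 1 (fun τ => by
      rw [Units.val_one, map_one, one_mul, pow_one, UpperHalfPlane.modular_T_zpow_smul,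
        UpperHalfPlane.coe_vadd, Periodic.qParam, Periodic.qParam]
      rw [Complex.exp_eq_exp_iff_exists_int]
      refine ⟨k, ?_⟩
      push_cast
      field_simp
      ring)
  have h1 : φ x = x := by
    apply serHom_injective
    have : serHom (φ x) = lsubst 1 1 (serHom x) := rfl
    rw [this, lsubst_apply, twist_one, qExpand_one_apply]
  have h2 : evAt τ (φ x) = evAt ((ModularGroup.T ^ ((h : ℤ) * k) : SL(2, ℤ)) • τ) x := rfl
  rw [← h2, h1]

lemma sqrt_pow_two_mul (z : ℂ) (m : ℕ) : Complex.sqrt z ^ (2 * m) = z ^ m := by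
  rw [pow_mul, Complex.sqrt]
  congr 1
  exact_mod_cast Complex.cpow_nat_inv_pow z two_ne_zero

lemma eta_S (τ : ℍ) : ModularForm.eta ((ModularGroup.S • τ : ℍ) : ℂ) =
    (Complex.sqrt Complex.I)⁻¹ * (Complex.sqrt τ * ModularForm.eta τ) := by
  have h1 := ModularForm.eta_comp_eq_csqrt_I_inv τ.2
  rw [UpperHalfPlane.modular_S_smul]
  simp only [Function.comp, Pi.smul_apply, Pi.mul_apply, smul_eq_mul] at h1
  rw [← h1]
  congr 1
  change (-(τ : ℂ))⁻¹ = _
  rw [inv_neg, neg_div, one_div]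

lemma tf_eq (he : e * (p - 1) = 24) (τ : ℍ) : tf p e τ =
    (ModularForm.eta τ / ModularForm.eta (scl p (p_pos p) τ)) ^ e := by
  rw [eta_eq, eta_eq, tf, div_pow, mul_pow, mul_pow, mul_div_mul_comm, mul_assoc, inv_pow,
    ← div_eq_mul_inv]
  congr 1
  have hp : 1 ≤ p := p_pos p
  have h1 : (e : ℂ) * ((p : ℂ) - 1) = 24 := by
    have : ((e * (p - 1) : ℕ) : ℂ) = 24 := by rw [he]; norm_num
    rw [← this, Nat.cast_mul, Nat.cast_sub hp, Nat.cast_one]
  rw [coe_scl]
  simp only [Periodic.qParam]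
  rw [← Complex.exp_int_mul, ← Complex.exp_nat_mul, ← Complex.exp_nat_mul, ← Complex.exp_sub]
  congr 1
  push_cast
  linear_combination (2 * Real.pi * Complex.I * τ / 24) * h1

lemma sf_eq (he : e * (p - 1) = 24) (τ : ℍ) : sf p e τ =
    (ModularForm.eta τ / ModularForm.eta (aff 1 0 p one_pos (p_pos p) τ)) ^ e := by
  rw [eta_eq, eta_eq, sf, div_pow, mul_pow, mul_pow, mul_div_mul_comm, mul_assoc, inv_pow,
    ← div_eq_mul_inv]
  congr 1
  have hp : 1 ≤ p := p_pos p
  have hp' : (p : ℂ) ≠ 0 := by exact_mod_cast NeZero.ne p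
  have h1 : (e : ℂ) * ((p : ℂ) - 1) = 24 := by
    have : ((e * (p - 1) : ℕ) : ℂ) = 24 := by rw [he]; norm_num
    rw [← this, Nat.cast_mul, Nat.cast_sub hp, Nat.cast_one]
  rw [coe_aff]
  simp only [Periodic.qParam]
  rw [← Complex.exp_int_mul, ← Complex.exp_nat_mul, ← Complex.exp_nat_mul, ← Complex.exp_sub]
  congr 1
  push_cast
  field_simp
  linear_combination (- (τ : ℂ)) * h1

/-- the transformation under `S` -/
lemma tf_S {m : ℕ} (he : 2 * m * (p - 1) = 24) (τ : ℍ) :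
    tf p (2 * m) (ModularGroup.S • τ) = (p : ℂ) ^ m * sf p (2 * m) τ := by
  have hp' : (p : ℂ) ≠ 0 := by exact_mod_cast NeZero.ne p
  have h1 : scl p (p_pos p) (ModularGroup.S • τ) = ModularGroup.S • (aff 1 0 p one_pos (p_pos p) τ) := by
    ext1
    rw [coe_scl, UpperHalfPlane.modular_S_smul, UpperHalfPlane.modular_S_smul]
    change (p : ℂ) * (-(τ : ℂ))⁻¹ = (-((aff 1 0 p one_pos (p_pos p) τ : ℍ) : ℂ))⁻¹
    rw [coe_aff, inv_neg, inv_neg]
    have : (τ : ℂ) ≠ 0 := τ.ne_zero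
    push_cast
    field_simp
    rw [add_zero, div_self this]
  rw [tf_eq p (2 * m) he, sf_eq p (2 * m) he, h1, eta_S, eta_S]
  have hI : (Complex.sqrt Complex.I)⁻¹ ^ (2 * m) ≠ 0 := by
    rw [inv_pow, sqrt_pow_two_mul]
    exact inv_ne_zero (pow_ne_zero _ Complex.I_ne_zero)
  have hη : ModularForm.eta (aff 1 0 p one_pos (p_pos p) τ : ℍ) ≠ 0 := ModularForm.eta_ne_zero (UpperHalfPlane.im_pos _)
  have hτ : (τ : ℂ) ≠ 0 := τ.ne_zero
  rw [div_pow, div_pow, mul_pow, mul_pow, mul_pow, mul_pow, sqrt_pow_two_mul, sqrt_pow_two_mul,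
    mul_div_mul_left _ _ hI]
  have h2 : (((aff 1 0 p one_pos (p_pos p) τ : ℍ) : ℂ)) = τ / p := by
    rw [coe_aff]; push_cast; ring
  rw [h2] at hη
  simp only [h2, div_pow]
  field_simp

end eta

end Fermat.Agent.RedQ
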