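import Fermat.Agent.RedQ.Haupt
import Fermat.Agent.Gam0.Index
import Fermat.Agent.RedQ.Field
set_option autoImplicit false
set_option linter.unusedSectionVars false

noncomputable section
open UpperHalfPlane Function Filter ModularCurve Polynomial
open scoped Topology Manifold MatrixGroups ModularForm

namespace Fermat.Agent.RedQ

open Fermat.Agent.Igusa Fermat.Agent.Gam0

local notation "𝕢" => Periodic.qParam

section euclid

/-- invariance group of a function -/
def invGrp (f : ℍ → ℂ) : Subgroup SL(2, ℤ) where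
  carrier := {γ | ∀ τ, f (γ • τ) = f τ}
  mul_mem' {a b} ha hb τ := by rw [mul_smul, ha, hb]
  one_mem' τ := by rw [one_smul]
  inv_mem' {a} ha τ := by
    have := ha (a⁻¹ • τ)
    rw [smul_inv_smul] at this
    exact this.symm

lemma exists_centered (a : ℤ) {c : ℤ} (hc : c ≠ 0) : ∃ k : ℤ, 2 * |a + k * c| ≤ |c| := by
  have h1 := Int.emod_nonneg a hc
  have h2 := Int.emod_lt_abs a hc
  have h3 := Int.mul_ediv_add_emod a c
  have hpos : 0 < |c| := abs_pos.mpr hc
  by_cases h : 2 * (a % c) ≤ |c|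
  · refine ⟨-(a / c), ?_⟩
    have : a + -(a / c) * c = a % c := by linear_combination -h3
    rw [this, abs_of_nonneg h1]
    exact h
  · push Not at h
    rcases lt_or_gt_of_ne hc with hc' | hc'
    · refine ⟨-(a / c) + 1, ?_⟩
      have : a + (-(a / c) + 1) * c = a % c + c := by linear_combination -h3
      rw [this]
      rw [abs_of_neg hc'] at *
      rw [abs_of_nonpos (by omega)]
      omega
    · refine ⟨-(a / c) - 1, ?_⟩
      have : a + (-(a / c) - 1) * c = a % c - c := by linear_combination -h3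
      rw [this]
      rw [abs_of_pos hc'] at *
      rw [abs_of_nonpos (by omega)]
      omega

theorem Gamma0_le_of (p : ℕ) (hp : p = 2 ∨ p = 3) (H : Subgroup SL(2, ℤ)) (hT : ModularGroup.T ∈ H)
    (hneg : (-1 : SL(2, ℤ)) ∈ H) (hL : ∀ m : ℤ, lowerSL (p * m) ∈ H) : CongruenceSubgroup.Gamma0 p ≤ H := by
  have hp0 : (0 : ℤ) < p := by rcases hp with rfl | rfl <;> norm_num
  have hp4 : (p : ℤ) < 4 := by rcases hp with rfl | rfl <;> norm_num
  have hp2 : (2 : ℤ) ≤ p := by rcases hp with rfl | rfl <;> norm_num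
  have key : ∀ n : ℕ, ∀ γ : SL(2, ℤ), (p : ℤ) ∣ γ 1 0 → (γ 1 0).natAbs = n → γ ∈ H := by
    intro n
    induction n using Nat.strong_induction_on with
    | _ n ih =>
      intro γ hdvd hn
      have hdet : γ 0 0 * γ 1 1 - γ 0 1 * γ 1 0 = 1 := by
        have := γ.2
        rwa [Matrix.det_fin_two] at this
      by_cases hc : γ 1 0 = 0
      · rw [hc, mul_zero, sub_zero] at hdet
        rcases Int.mul_eq_one_iff_eq_one_or_neg_one.mp hdet with ⟨h1, h2⟩ | ⟨h1, h2⟩
        · have : γ = ModularGroup.T ^ (γ 0 1) := by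
            apply Matrix.SpecialLinearGroup.ext
            intro i j
            rw [ModularGroup.coe_T_zpow]
            fin_cases i <;> fin_cases j <;> simp [h1, h2, hc]
          rw [this]
          exact H.zpow_mem hT _
        · have : γ = (-1) * ModularGroup.T ^ (-(γ 0 1)) := by
            apply Matrix.SpecialLinearGroup.ext
            intro i j
            rw [Matrix.SpecialLinearGroup.coe_mul, ModularGroup.coe_T_zpow, Matrix.SpecialLinearGroup.coe_neg,
              Matrix.SpecialLinearGroup.coe_one]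
            fin_cases i <;> fin_cases j <;> simp [h1, h2, hc]
          rw [this]
          exact H.mul_mem hneg (H.zpow_mem hT _)
      · obtain ⟨k, hk⟩ := exists_centered (γ 0 0) hc
        set γ₁ : SL(2, ℤ) := ModularGroup.T ^ k * γ with hγ₁
        have h00 : γ₁ 0 0 = γ 0 0 + k * γ 1 0 := by
          rw [hγ₁, Matrix.SpecialLinearGroup.coe_mul, ModularGroup.coe_T_zpow]
          simp [Matrix.mul_apply, Fin.sum_univ_two]
        have h10 : γ₁ 1 0 = γ 1 0 := by
          rw [hγ₁, Matrix.SpecialLinearGroup.coe_mul, ModularGroup.coe_T_zpow]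
          simp [Matrix.mul_apply, Fin.sum_univ_two]
        have hdet1 : γ₁ 0 0 * γ₁ 1 1 - γ₁ 0 1 * γ₁ 1 0 = 1 := by
          have := γ₁.2
          rwa [Matrix.det_fin_two] at this
        rw [← h00] at hk
        have ha : γ₁ 0 0 ≠ 0 := by
          intro h0
          rw [h0, h10, zero_mul, zero_sub] at hdet1
          have h1 : (p : ℤ) ∣ 1 := by
            rw [← hdet1]
            exact (Dvd.dvd.mul_left hdvd _).neg_right
          have := Int.le_of_dvd one_pos h1
          omega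
        obtain ⟨m, hm⟩ := exists_centered (γ₁ 1 0) (c := p * γ₁ 0 0) (mul_ne_zero hp0.ne' ha)
        set γ₂ : SL(2, ℤ) := lowerSL (p * m) * γ₁ with hγ₂
        have h10' : γ₂ 1 0 = γ₁ 1 0 + m * (p * γ₁ 0 0) := by
          rw [hγ₂, Matrix.SpecialLinearGroup.coe_mul, lowerSL]
          simp [Matrix.mul_apply, Fin.sum_univ_two]
          ring
        rw [← h10'] at hm
        have h2 : γ₂ ∈ H := by
          refine ih (γ₂ 1 0).natAbs ?_ γ₂ ?_ rfl
          · rw [← hn]
            have h3 : |γ₂ 1 0| < |γ 1 0| := by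
              rw [abs_mul, abs_of_pos hp0] at hm
              have : 0 < |γ 1 0| := abs_pos.mpr hc
              nlinarith [abs_nonneg (γ₁ 0 0)]
            rw [← Int.natCast_natAbs, ← Int.natCast_natAbs] at h3
            exact_mod_cast h3
          · rw [h10', h10]
            exact dvd_add hdvd (Dvd.dvd.mul_left (dvd_mul_right _ _) _)
        have h3 : γ₁ ∈ H := (H.mul_mem_cancel_left (hL m)).mp h2
        exact (H.mul_mem_cancel_left (H.zpow_mem hT k)).mp h3
  intro γ hγ
  have : NeZero p := ⟨by rcases hp with rfl | rfl <;> norm_num⟩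
  rw [Gamma0_iff_dvd] at hγ
  exact key _ γ hγ rfl

lemma lowerSL_eq (p : ℕ) (m : ℤ) :
    lowerSL (p * m) = ModularGroup.S * ModularGroup.T ^ ((p : ℤ) * (-m)) * (ModularGroup.S)⁻¹ := by
  apply Matrix.SpecialLinearGroup.ext
  intro i j
  rw [Matrix.SpecialLinearGroup.coe_mul, Matrix.SpecialLinearGroup.coe_mul, ModularGroup.coe_T_zpow,
    Matrix.SpecialLinearGroup.coe_inv, lowerSL, ModularGroup.S]
  fin_cases i <;> fin_cases j <;> simp [Matrix.mul_apply, Fin.sum_univ_two, Matrix.adjugate_fin_two]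

end euclid

section ismod

variable (p : ℕ) [NeZero p] {m : ℕ}

theorem tf_inv (hp : p = 2 ∨ p = 3) (he : 2 * m * (p - 1) = 24) {γ : SL(2, ℤ)}
    (hγ : γ ∈ CongruenceSubgroup.Gamma0 p) (τ : ℍ) : tf p (2 * m) (γ • τ) = tf p (2 * m) τ := by
  have h1 : CongruenceSubgroup.Gamma0 p ≤ invGrp (tf p (2 * m)) := by
    apply Gamma0_le_of p hp
    · intro τ
      have := evAt_T_pow (R := ℂ) 1 1 (tE ℂ p (2 * m)) τ
      rw [evAt_tE, evAt_tE, Nat.cast_one, mul_one, zpow_one] at this
      exact this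
    · intro τ
      have : (-1 : SL(2, ℤ)) • τ = τ := by
        rw [ModularGroup.SL_neg_smul, one_smul]
      rw [this]
    · intro k τ
      rw [lowerSL_eq, mul_smul, mul_smul, tf_S p he]
      have := evAt_T_pow (R := ℂ) p (-k) (sE ℂ p (2 * m)) ((ModularGroup.S)⁻¹ • τ)
      rw [evAt_sE, evAt_sE] at this
      rw [this, ← tf_S p he, smul_inv_smul]
  exact h1 hγ τ

lemma exists_T_pow (hp : p.Prime) {γ : SL(2, ℤ)} (hγ : ¬ (p : ℤ) ∣ γ 1 0) :
    ∃ k : ℤ, γ * (ModularGroup.S * ModularGroup.T ^ k)⁻¹ ∈ CongruenceSubgroup.Gamma0 p := by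
  have := Fact.mk hp
  have hc : ((γ 1 0 : ℤ) : ZMod p) ≠ 0 := by
    rwa [Ne, ZMod.intCast_zmod_eq_zero_iff_dvd]
  refine ⟨(ZMod.cast (((γ 1 1 : ℤ) : ZMod p) * ((γ 1 0 : ℤ) : ZMod p)⁻¹) : ℤ), ?_⟩
  rw [CongruenceSubgroup.Gamma0_mem]
  rw [Matrix.SpecialLinearGroup.coe_mul, Matrix.SpecialLinearGroup.coe_inv,
    Matrix.SpecialLinearGroup.coe_mul, ModularGroup.coe_T_zpow, ModularGroup.S]
  simp only [Matrix.mul_apply, Fin.sum_univ_two, Matrix.adjugate_fin_two]
  simp
  field_simp
  ring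

variable {R : Type*} [CommRing R] [Algebra R ℂ]

/-- translation by `k` in the expansion ring of level `p` -/
lemma exists_translate (hR : GoodRing p R) (k : ℤ) : ∃ (ζ : Rˣ) (φ : expRing p R →+* expRing p R),
    (∀ x τ, evAt τ (φ x) = evAt ((ModularGroup.T ^ k : SL(2, ℤ)) • τ) x) ∧
      (∀ x, serHom (φ x) = lsubst 1 ζ (serHom x)) := by
  have hp : (p : ℂ) ≠ 0 := by exact_mod_cast NeZero.ne p
  obtain ⟨ζ, hζ⟩ := hR.exists_zeta (p_pos p) dvd_rfl k
  refine ⟨ζ, substHom (fun τ => (ModularGroup.T ^ k : SL(2, ℤ)) • τ) ζ 1 (fun τ => ?_), ?_, ?_⟩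
  · rw [hζ, pow_one, UpperHalfPlane.modular_T_zpow_smul, UpperHalfPlane.coe_vadd, Periodic.qParam,
      Periodic.qParam, ← Complex.exp_add]
    congr 1
    push_cast
    ring
  · intro x τ; rfl
  · intro x; rfl

variable {p}

lemma tf_smul_of_not_dvd (hp : p = 2 ∨ p = 3) (he : 2 * m * (p - 1) = 24) {γ : SL(2, ℤ)}
    (h : ¬ (p : ℤ) ∣ γ 1 0) : ∃ k : ℤ, ∀ (f : ℍ → ℂ),
      (∀ g ∈ CongruenceSubgroup.Gamma0 p, ∀ τ : ℍ, f (g • τ) = f τ) → ∀ τ : ℍ,
      f (γ • τ) = f (ModularGroup.S • ((ModularGroup.T ^ k : SL(2, ℤ)) • τ)) := by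
  have hprime : p.Prime := by rcases hp with rfl | rfl <;> norm_num
  obtain ⟨k, hk⟩ := exists_T_pow p hprime h
  refine ⟨k, fun f hf τ => ?_⟩
  have h1 := hf _ hk ((ModularGroup.S * ModularGroup.T ^ k) • τ)
  rw [← mul_smul, inv_mul_cancel_right] at h1
  rw [h1, mul_smul]

theorem isMod_tf (hR : GoodRing p R) (hp : p = 2 ∨ p = 3) (he : 2 * m * (p - 1) = 24) :
    IsMod p R (tf p (2 * m)) where
  inv γ hγ τ := tf_inv p hp he hγ τ
  exp γ := by
    by_cases h : (p : ℤ) ∣ γ 1 0
    · refine ⟨upHom p R (tE R p (2 * m)), fun τ => ?_⟩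
      rw [upHom_fn, evAt_tE, tf_inv p hp he (Gamma0_iff_dvd.mpr h)]
    · obtain ⟨k, hk⟩ := tf_smul_of_not_dvd hp he h
      obtain ⟨ζ, φ, h1, h2⟩ := exists_translate p hR k
      refine ⟨cst p R ((p : R) ^ m) * φ (sE R p (2 * m)), fun τ => ?_⟩
      rw [hk _ (fun g hg τ => tf_inv p hp he hg τ), tf_S p he, map_mul, h1, evAt_sE]
      congr 1
      have : evAt τ (cst p R ((p : R) ^ m)) = algebraMap R ℂ ((p : R) ^ m) := rfl
      rw [this, map_pow, map_natCast]

end ismod

section van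
variable {k : Type*} [CommRing k]

/-- the series is in `q^a k[[q]]` -/
def Van (a : ℤ) (x : LaurentSeries k) : Prop :=
  ∃ x' : PowerSeries k, x = HahnSeries.single a 1 * HahnSeries.ofPowerSeries ℤ k x'

lemma Van.mul {a b : ℤ} {x y : LaurentSeries k} (hx : Van a x) (hy : Van b y) : Van (a + b) (x * y) := by
  obtain ⟨x', rfl⟩ := hx
  obtain ⟨y', rfl⟩ := hy
  refine ⟨x' * y', ?_⟩
  rw [map_mul, mul_mul_mul_comm, HahnSeries.single_mul_single, mul_one]

lemma Van.neg {a : ℤ} {x : LaurentSeries k} (hx : Van a x) : Van a (-x) := by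
  obtain ⟨x', rfl⟩ := hx
  exact ⟨-x', by rw [map_neg, mul_neg]⟩

lemma Van.one : Van (0 : ℤ) (1 : LaurentSeries k) :=
  ⟨1, by rw [map_one (HahnSeries.ofPowerSeries ℤ k), mul_one]; rfl⟩

lemma Van.prod {ι : Type*} (s : Finset ι) (a : ι → ℤ) (x : ι → LaurentSeries k)
    (h : ∀ i ∈ s, Van (a i) (x i)) : Van (∑ i ∈ s, a i) (∏ i ∈ s, x i) := by
  classical
  induction s using Finset.induction_on with
  | empty => simpa using Van.one
  | insert i s hi ih =>
    rw [Finset.sum_insert hi, Finset.prod_insert hi]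
    exact (h i (Finset.mem_insert_self _ _)).mul (ih fun j hj => h j (Finset.mem_insert_of_mem hj))

lemma Van.coeff {a : ℤ} {x : LaurentSeries k} (hx : Van a x) {j : ℤ} (hj : j < a) : x.coeff j = 0 := by
  obtain ⟨x', rfl⟩ := hx
  rw [HahnSeries.coeff_single_mul, one_mul, ofPowerSeries_coeff_of_neg _ (by omega)]

lemma Van.lsubst {a : ℤ} {x : LaurentSeries k} (hx : Van a x) (s : ℕ) [NeZero s] (ζ : kˣ) :
    Van (s * a) (lsubst s ζ x) := by
  obtain ⟨x', rfl⟩ := hx
  refine ⟨PowerSeries.C ((ζ ^ a : kˣ) : k) * psSubst s ζ x', ?_⟩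
  rw [map_mul (Igusa.lsubst s ζ), lsubst_single, lsubst_ofPowerSeries,
    map_mul (HahnSeries.ofPowerSeries ℤ k), HahnSeries.ofPowerSeries_C, HahnSeries.C_apply,
    ← mul_assoc, HahnSeries.single_mul_single, add_zero, one_mul, mul_one]

lemma Van.qExpand {a : ℤ} {x : LaurentSeries k} (hx : Van a x) (s : ℕ) [NeZero s] :
    Van (s * a) (qExpand k s x) := by
  have := hx.lsubst s 1
  rwa [lsubst_apply, twist_one] at this

end van

section norm
variable {p : ℕ} [NeZero p]

theorem eq_zero_of_norm (hcard : Fintype.card (Cos p) = p + 1) (hp : p = 2 ∨ p = 3) {m : ℕ}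
    (he : 2 * m * (p - 1) = 24) {f : ℍ → ℂ} (hf : IsMod p ℂ f)
    (yI : expRing 1 ℂ) (hyI : ∀ τ, evAt τ yI = f τ) (yZ : expRing p ℂ)
    (hyZ : ∀ τ : ℍ, evAt τ yZ = f (ModularGroup.S • τ)) {a b : ℤ} (ha : Van a (serHom yI))
    (hb : Van b (serHom yZ)) (hab : 0 < a + b) : yI = 0 := by
  classical
  have hinj : Function.Injective (algebraMap ℂ ℂ) := fun _ _ h => h
  have hpp : (0 : ℤ) < p := by exact_mod_cast p_pos p
  have hv : ∀ c : Cos p, Van (if c = QuotientGroup.mk 1 then p * a else b) (serHom (hf.conj c)) := by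
    intro c
    split_ifs with hc
    · rw [hc, hf.conj_one hinj yI hyI]
      exact ha.qExpand p
    · induction c using QuotientGroup.induction_on with
      | H g =>
        have hg : ¬ (p : ℤ) ∣ (g⁻¹ : SL(2, ℤ)) 1 0 := by
          intro hd
          apply hc
          rw [QuotientGroup.eq, mul_one, Gamma0_iff_dvd]
          exact hd
        obtain ⟨k, hk⟩ := tf_smul_of_not_dvd hp he hg
        obtain ⟨ζ, φ, h1, h2⟩ := exists_translate p (goodRing_complex (N := p)) k
        have h3 : hf.conj (QuotientGroup.mk g) = φ yZ := by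
          apply fnHom_injective hinj
          ext τ
          have h4 := hf.conj_mk g τ
          rw [hk f hf.inv τ, ← hyZ, ← h1 yZ τ] at h4
          exact h4
        rw [h3, h2]
        have := hb.lsubst 1 ζ
        rwa [Nat.cast_one, one_mul] at this
  obtain ⟨Q, hQ, -, -⟩ := exists_lift hinj (PhiQ hf) (PhiQ_inv hf)
  have h1 : polyHom p ℂ (Q.coeff 0) = ∏ c : Cos p, (-(hf.conj c)) := by
    rw [← PhiQ_coeff_zero, ← hQ, Polynomial.coeff_map]
  have h2 : qExpand ℂ p (jev ℂ (Q.coeff 0)) = ∏ c : Cos p, (-(serHom (hf.conj c))) := by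
    rw [← serHom_polyHom, h1, map_prod]
    simp only [map_neg]
  have h3 : Van (p * (a + b)) (qExpand ℂ p (jev ℂ (Q.coeff 0))) := by
    rw [h2]
    have h4 := Van.prod Finset.univ _ (fun c => -(serHom (hf.conj c))) (fun c _ => (hv c).neg)
    convert h4 using 1
    rw [← Finset.add_sum_erase _ _ (Finset.mem_univ (QuotientGroup.mk 1 : Cos p)), if_pos rfl,
      Finset.sum_congr rfl (g := fun _ => b) (fun c hc => if_neg (Finset.ne_of_mem_erase hc)),
      Finset.sum_const, Finset.card_erase_of_mem (Finset.mem_univ _), Finset.card_univ, hcard,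
      nsmul_eq_mul, Nat.add_sub_cancel]
    ring
  have h5 : Q.coeff 0 = 0 := by
    by_contra h0
    have h6 := h3.coeff (j := p * (-((Q.coeff 0).natDegree : ℤ))) (by nlinarith)
    rw [qExpand_coeff_mul, coeff_jev_natDegree, Polynomial.leadingCoeff_eq_zero] at h6
    exact h0 h6
  rw [h5, map_zero, map_zero] at h2
  obtain ⟨c, -, hc⟩ := Finset.prod_eq_zero_iff.mp h2.symm
  rw [neg_eq_zero] at hc
  have h6 : hf.conj c = 0 := serHom_injective (by rw [hc, map_zero])
  apply fnHom_injective hinj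
  ext τ
  induction c using QuotientGroup.induction_on with
  | H g =>
    have h7 := hf.conj_mk g (g • τ)
    rw [h6, map_zero, inv_smul_smul] at h7
    have h8 := hyI τ
    rw [← h7] at h8
    rw [map_zero]
    exact h8

end norm

end Fermat.Agent.RedQ
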